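/-
S15 (Mazur's Eisenstein descent), block SEL-ABS = item (3) of report 324.
Mazur's inequality `h¹ - h⁰ ≤ δ - α` in COCYCLE form, with a mapping cone at `N`.

`V` : a finite abelian group with an action of `GQ = Gal(Qbar/Q)`; `r ≠ N` primes; `P : Places` a choice of one place of
`Qbar` above every prime; `Ine A` the inertia group of `A`.

`D : SelDat P r N V` = local data: `Vm` ("multiplicative part at r"), `Vf` ("finite part at N") + axioms.
For a `GQ`-stable subgroup `W ≤ V` (with the INDUCED data `W ⊓ Vm`, `W ⊓ Vf`):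
* `Z1 D W` = pairs `(c, m)`, `c : GQ → W` a smooth 1-cocycle, `m ∈ W`, `c = 0` on the inertia groups at `ℓ ∉ {r, N}`,
  `c (I_r) ⊆ Vm` and `c|I_r` PEU RAMIFIE (`Peu`), `c = d m` on `I_N`;
* `B1 D W` = pairs `(d x, x + y)`, `x ∈ W`, `y ∈ W ⊓ Vf`;
* `H0 D W` = `W^GQ ⊓ Vf`.
`Good D W` :  `[Z1 : B1]` is finite and `[Z1 : B1] * [W : W ⊓ Vm] ≤ #H0 * [W : W ⊓ Vf]`.
Everything lives in the fixed ambient group `V` (no subtypes); quotients `V ⧸ W` enter through `QMap`.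
-/
import Mathlib
import Fermat.Prelude.Def_FLTPrelim_Ramification

set_option autoImplicit false
set_option linter.unusedSectionVars false

noncomputable section

namespace Fermat.Agent.S15.Sel

abbrev Qb := AlgebraicClosure ℚ
abbrev GQ := Qb ≃ₐ[ℚ] Qb

/-- inertia subgroup at `A`. -/
abbrev Ine (A : ValuationSubring Qb) : Subgroup GQ := A.inertiaSubgroupIn ℚ

/-- a choice of one place of `Qb` above every prime. -/
structure Places where
  pl : ℕ → ValuationSubring Qb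
  lies : ∀ ℓ : ℕ, ℓ.Prime → (pl ℓ).LiesOverPrime ℓ

section basic

variable {V : Type*} [AddCommGroup V] [DistribMulAction GQ V]

/-- the coboundary of `x`. -/
def dd (x : V) : GQ → V := fun σ => σ • x - x

@[simp] theorem dd_apply (x : V) (σ : GQ) : dd x σ = σ • x - x := rfl

/-- 1-cocycles. -/
def IsCoc (c : GQ → V) : Prop := ∀ σ τ : GQ, c (σ * τ) = c σ + σ • c τ

/-- smoothness (continuity) of a cocycle: it vanishes on an open subgroup. -/
def IsSm (c : GQ → V) : Prop := ∃ s : Finset Qb, ∀ σ : GQ, (∀ z ∈ s, σ z = z) → c σ = 0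

/-- `c|I_A` is PEU RAMIFIE: for every character `ψ` of `V`, `σ ↦ ψ (c σ)` is on `I_A` the Kummer cocycle `σ β / β` of a
UNIT `β` of `A`. -/
def Peu (A : ValuationSubring Qb) (c : GQ → V) : Prop :=
  ∀ ψ : AddChar V Qb, ∃ β : Qb, A.valuation β = 1 ∧ ∀ σ ∈ Ine A, σ β = ψ (c σ) * β

/-- `GQ`-stable subgroups. -/
def GStable (W : AddSubgroup V) : Prop := ∀ σ : GQ, ∀ x ∈ W, σ • x ∈ W

end basic

/-- the local data. -/
structure SelDat (P : Places) (r N : ℕ) (V : Type*) [AddCommGroup V] [DistribMulAction GQ V] where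
  /-- "multiplicative part" at `r` -/
  Vm : AddSubgroup V
  /-- "finite part" at `N` -/
  Vf : AddSubgroup V
  /-- the action is smooth -/
  sm : ∀ x : V, IsSm (dd x)
  /-- unramified outside `r N` (at the chosen places) -/
  ur : ∀ ℓ : ℕ, ℓ.Prime → ℓ ≠ r → ℓ ≠ N → ∀ σ ∈ Ine (P.pl ℓ), ∀ x : V, σ • x = x
  /-- `I_N` acts trivially on `Vf` -/
  f_fix : ∀ σ ∈ Ine (P.pl N), ∀ x ∈ Vf, σ • x = x
  /-- `I_r` acts trivially on `V / Vm` -/
  m_quot : ∀ σ ∈ Ine (P.pl r), ∀ x : V, σ • x - x ∈ Vm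
  /-- `Vm` is of multiplicative type for `I_r` -/
  m_mult : ∀ σ ∈ Ine (P.pl r), ∀ ψ : AddChar V Qb, ∀ x ∈ Vm, ψ (σ • x) = σ (ψ x)
  /-- `V` is peu ramifie at `r` -/
  pr : ∀ x : V, Peu (P.pl r) (dd x)

section groups

variable {P : Places} {r N : ℕ} {V : Type*} [AddCommGroup V] [DistribMulAction GQ V]

/-- membership in `Z1`. -/
structure InZ1 (D : SelDat P r N V) (W : AddSubgroup V) (p : (GQ → V) × V) : Prop where
  coc : IsCoc p.1
  sm : IsSm p.1
  mem1 : ∀ σ, p.1 σ ∈ W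
  mem2 : p.2 ∈ W
  ur : ∀ ℓ : ℕ, ℓ.Prime → ℓ ≠ r → ℓ ≠ N → ∀ σ ∈ Ine (P.pl ℓ), p.1 σ = 0
  atr : ∀ σ ∈ Ine (P.pl r), p.1 σ ∈ D.Vm
  peu : Peu (P.pl r) p.1
  atN : ∀ σ ∈ Ine (P.pl N), p.1 σ = σ • p.2 - p.2

theorem IsSm.add {c c' : GQ → V} (h : IsSm c) (h' : IsSm c') : IsSm (c + c') := by
  classical
  obtain ⟨s, hs⟩ := h
  obtain ⟨s', hs'⟩ := h'
  refine ⟨s ∪ s', fun σ hσ => ?_⟩
  rw [Pi.add_apply, hs σ fun z hz => hσ z (Finset.mem_union_left _ hz),
    hs' σ fun z hz => hσ z (Finset.mem_union_right _ hz), add_zero]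

theorem IsSm.neg {c : GQ → V} (h : IsSm c) : IsSm (-c) := by
  obtain ⟨s, hs⟩ := h
  exact ⟨s, fun σ hσ => by rw [Pi.neg_apply, hs σ hσ, neg_zero]⟩

theorem Peu.add {A : ValuationSubring Qb} {c c' : GQ → V} (h : Peu A c) (h' : Peu A c') :
    Peu A (c + c') := by
  intro ψ
  obtain ⟨β, hβ, h1⟩ := h ψ
  obtain ⟨β', hβ', h2⟩ := h' ψ
  refine ⟨β * β', by rw [map_mul, hβ, hβ', one_mul], fun σ hσ => ?_⟩
  rw [map_mul, h1 σ hσ, h2 σ hσ, Pi.add_apply, AddChar.map_add_eq_mul]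
  ring

theorem Peu.neg {A : ValuationSubring Qb} {c : GQ → V} (h : Peu A c) : Peu A (-c) := by
  intro ψ
  obtain ⟨β, hβ, h1⟩ := h ψ
  refine ⟨β⁻¹, by rw [map_inv₀, hβ, inv_one], fun σ hσ => ?_⟩
  rw [map_inv₀, h1 σ hσ, Pi.neg_apply, AddChar.map_neg_eq_inv, mul_inv]

theorem Peu.zero (A : ValuationSubring Qb) : Peu A (0 : GQ → V) := by
  intro ψ
  exact ⟨1, map_one _, fun σ _ => by simp⟩

/-- the cocycle group of the cone. -/
def Z1 (D : SelDat P r N V) (W : AddSubgroup V) : AddSubgroup ((GQ → V) × V) where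
  carrier := {p | InZ1 D W p}
  zero_mem' :=
    { coc := fun σ τ => by simp
      sm := ⟨∅, fun _ _ => rfl⟩
      mem1 := fun _ => W.zero_mem
      mem2 := W.zero_mem
      ur := fun _ _ _ _ _ _ => rfl
      atr := fun _ _ => D.Vm.zero_mem
      peu := Peu.zero _
      atN := fun σ _ => by simp }
  add_mem' := fun {p p'} h h' =>
    { coc := fun σ τ => by
        simp only [Prod.fst_add, Pi.add_apply, h.coc σ τ, h'.coc σ τ, smul_add]; abel
      sm := h.sm.add h'.sm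
      mem1 := fun σ => W.add_mem (h.mem1 σ) (h'.mem1 σ)
      mem2 := W.add_mem h.mem2 h'.mem2
      ur := fun ℓ h1 h2 h3 σ hσ => by
        simp only [Prod.fst_add, Pi.add_apply, h.ur ℓ h1 h2 h3 σ hσ, h'.ur ℓ h1 h2 h3 σ hσ, add_zero]
      atr := fun σ hσ => D.Vm.add_mem (h.atr σ hσ) (h'.atr σ hσ)
      peu := h.peu.add h'.peu
      atN := fun σ hσ => by
        simp only [Prod.fst_add, Prod.snd_add, Pi.add_apply, h.atN σ hσ, h'.atN σ hσ, smul_add]; abel }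
  neg_mem' := fun {p} h =>
    { coc := fun σ τ => by
        simp only [Prod.fst_neg, Pi.neg_apply, h.coc σ τ, smul_neg]; abel
      sm := h.sm.neg
      mem1 := fun σ => W.neg_mem (h.mem1 σ)
      mem2 := W.neg_mem h.mem2
      ur := fun ℓ h1 h2 h3 σ hσ => by
        simp only [Prod.fst_neg, Pi.neg_apply, h.ur ℓ h1 h2 h3 σ hσ, neg_zero]
      atr := fun σ hσ => D.Vm.neg_mem (h.atr σ hσ)
      peu := h.peu.neg
      atN := fun σ hσ => by
        simp only [Prod.fst_neg, Prod.snd_neg, Pi.neg_apply, h.atN σ hσ, smul_neg]; abel }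

theorem mem_Z1 {D : SelDat P r N V} {W : AddSubgroup V} {p : (GQ → V) × V} :
    p ∈ Z1 D W ↔ InZ1 D W p := Iff.rfl

theorem dd_add (x y : V) : dd (x + y) = dd x + dd y := by
  funext σ; simp only [dd_apply, Pi.add_apply, smul_add]; abel

theorem dd_neg (x : V) : dd (-x) = -dd x := by
  funext σ; simp only [dd_apply, Pi.neg_apply, smul_neg]; abel

theorem dd_zero : dd (0 : V) = 0 := by
  funext σ; simp

/-- the coboundary group of the cone. -/
def B1 (D : SelDat P r N V) (W : AddSubgroup V) : AddSubgroup ((GQ → V) × V) where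
  carrier := {p | ∃ x ∈ W, ∃ y ∈ W ⊓ D.Vf, p = (dd x, x + y)}
  zero_mem' := ⟨0, W.zero_mem, 0, (W ⊓ D.Vf).zero_mem, by rw [dd_zero, add_zero]; rfl⟩
  add_mem' := by
    rintro _ _ ⟨x, hx, y, hy, rfl⟩ ⟨x', hx', y', hy', rfl⟩
    refine ⟨x + x', W.add_mem hx hx', y + y', (W ⊓ D.Vf).add_mem hy hy', ?_⟩
    rw [dd_add, Prod.mk_add_mk]
    congr 1
    abel
  neg_mem' := by
    rintro _ ⟨x, hx, y, hy, rfl⟩
    refine ⟨-x, W.neg_mem hx, -y, (W ⊓ D.Vf).neg_mem hy, ?_⟩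
    rw [dd_neg, Prod.neg_mk]
    congr 1
    abel

theorem mem_B1 {D : SelDat P r N V} {W : AddSubgroup V} {p : (GQ → V) × V} :
    p ∈ B1 D W ↔ ∃ x ∈ W, ∃ y ∈ W ⊓ D.Vf, p = (dd x, x + y) := Iff.rfl

/-- `H⁰` of the cone. -/
def H0 (D : SelDat P r N V) (W : AddSubgroup V) : AddSubgroup V where
  carrier := {x | x ∈ W ∧ x ∈ D.Vf ∧ ∀ σ : GQ, σ • x = x}
  zero_mem' := ⟨W.zero_mem, D.Vf.zero_mem, fun σ => smul_zero σ⟩
  add_mem' := fun {a b} ha hb => ⟨W.add_mem ha.1 hb.1, D.Vf.add_mem ha.2.1 hb.2.1, fun σ => by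
    rw [smul_add, ha.2.2 σ, hb.2.2 σ]⟩
  neg_mem' := fun {a} ha => ⟨W.neg_mem ha.1, D.Vf.neg_mem ha.2.1, fun σ => by
    rw [smul_neg, ha.2.2 σ]⟩

theorem mem_H0 {D : SelDat P r N V} {W : AddSubgroup V} {x : V} :
    x ∈ H0 D W ↔ x ∈ W ∧ x ∈ D.Vf ∧ ∀ σ : GQ, σ • x = x := Iff.rfl

/-- `h¹ = [Z1 : B1]` (`0` if infinite). -/
def h1 (D : SelDat P r N V) (W : AddSubgroup V) : ℕ := (B1 D W).relIndex (Z1 D W)

/-- Mazur's inequality for `W`. -/
def Good (D : SelDat P r N V) (W : AddSubgroup V) : Prop :=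
  h1 D W ≠ 0 ∧ h1 D W * D.Vm.relIndex W ≤ Nat.card (H0 D W) * D.Vf.relIndex W

end groups

/-- an equivariant surjection `V → Vq` with kernel `W` (i.e. `Vq = V ⧸ W`). -/
structure QMap (V Vq : Type*) [AddCommGroup V] [DistribMulAction GQ V] [AddCommGroup Vq]
    [DistribMulAction GQ Vq] (W : AddSubgroup V) where
  π : V →+ Vq
  surj : Function.Surjective π
  ker : ∀ x, π x = 0 ↔ x ∈ W
  equiv : ∀ (σ : GQ) (x : V), π (σ • x) = σ • π x

/-- one step of a composition series: index `r`, `GQ` acts on `W' / W` trivially or like on `μ_r`. -/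
structure IsStep {V : Type*} [AddCommGroup V] [DistribMulAction GQ V] (r : ℕ) (W W' : AddSubgroup V) :
    Prop where
  le : W ≤ W'
  idx : W.relIndex W' = r
  type : (∀ σ : GQ, ∀ x ∈ W', σ • x - x ∈ W) ∨
    (∀ σ : GQ, ∀ ψ : AddChar V Qb, (∀ w ∈ W, ψ w = 1) → ∀ x ∈ W', ψ (σ • x) = σ (ψ x))

end Fermat.Agent.S15.Sel

end
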