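/-
S15 / SEL-ABS, leaf AR1: Hilbert 90 for `GQ` and rationality of invariants.
-/
import Fermat.Agent.S15.Sel.Defs
import Fermat.Agent.PT.B.Galois

set_option autoImplicit false

namespace Fermat.Agent.S15.Sel

/-- **Hilbert 90** for smooth cocycles `GQ → Qb^×`.
PROOF: `Fermat.Agent.PT.hilbert90_poincare (Ω := Qb) (G := GQ) PT.Lall (fun U hU g hg => PT.mem_level_of_fixes hU hg) ⊤ b ..`;
see `Fermat/Agent/S56/F/LF/Kummer.lean` (`exists_isKum`) for a complete model of this call: the level is `L'.fixingSubgroup` where `L'` is a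
finite normal extension containing `ℚ(s)` (`PT.exists_normal_level_all`); `b (v * u) = b v * v (b u) = b v`. -/
theorem h90 (b : GQ → Qb) (hb0 : ∀ σ, b σ ≠ 0) (hcoc : ∀ σ τ, b (σ * τ) = b σ * σ (b τ))
    (hsm : ∃ s : Finset Qb, ∀ σ : GQ, (∀ z ∈ s, σ z = z) → b σ = 1) :
    ∃ β : Qb, β ≠ 0 ∧ ∀ σ : GQ, σ β = b σ * β := by
  obtain ⟨s, hs⟩ := hsm
  have hfin : FiniteDimensional ℚ (IntermediateField.adjoin ℚ (s : Set Qb)) :=
    IntermediateField.finiteDimensional_adjoin fun x _ =>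
      (Algebra.IsAlgebraic.isAlgebraic (R := ℚ) x).isIntegral
  obtain ⟨L', hle, hfd, hn⟩ :=
    Fermat.Agent.PT.exists_normal_level_all (IntermediateField.adjoin ℚ (s : Set Qb)) hfin
  obtain ⟨β, hβ0, hβ⟩ := Fermat.Agent.PT.hilbert90_poincare (Ω := Qb) (G := GQ)
    Fermat.Agent.PT.Lall
    (fun U hU g hg => Fermat.Agent.PT.mem_level_of_fixes hU hg) ⊤ b
    (fun v _ => hb0 v)
    ⟨L'.fixingSubgroup, ⟨hn, L', hfd, rfl⟩, fun v _ u hu _ => by
      have h1 : b u = 1 := hs u fun z hz =>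
        (IntermediateField.mem_fixingSubgroup_iff L' u).mp hu z
          (hle (IntermediateField.subset_adjoin ℚ _ hz))
      rw [hcoc v u, h1, map_one, mul_one]⟩
    (fun v _ w _ => hcoc v w)
  exact ⟨β, hβ0, fun σ => by rw [mul_comm]; exact hβ σ (Subgroup.mem_top σ)⟩

/-- an element of `Qb` fixed by `GQ` is rational.  (`IsGalois ℚ Qb`; `IsGalois.mem_bot_iff_fixed`, or
`InfiniteGalois.fixedField_bot`/`IsGalois.fixedField_top` + `IntermediateField.mem_bot`.) -/
theorem exists_rat_of_fixed (x : Qb) (hx : ∀ σ : GQ, σ x = x) : ∃ a : ℚ, algebraMap ℚ Qb a = x := by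
  have hgal : IsGalois ℚ Qb := Fermat.Agent.PT.Levels_isGalois_Qbar inferInstance
  have h1 : x ∈ (⊥ : IntermediateField ℚ Qb) := (InfiniteGalois.mem_bot_iff_fixed x).mpr hx
  exact IntermediateField.mem_bot.mp h1

end Fermat.Agent.S15.Sel
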