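/-
S15 / SEL-ABS, leaf AR5 (PURE MATHLIB): a rational number all of whose valuations are divisible by `r` is `± b ^ r`.
-/
import Mathlib

set_option autoImplicit false

namespace Fermat.Agent.S15.Sel

private theorem ArRat_nat_pow {r n : ℕ} (hn : n ≠ 0)
    (h : ∀ ℓ : ℕ, ℓ.Prime → r ∣ padicValNat ℓ n) : ∃ m : ℕ, m ≠ 0 ∧ n = m ^ r := by
  refine ⟨n.factorization.prod fun p e => p ^ (e / r), ?_, ?_⟩
  · rw [Finsupp.prod]
    refine Finset.prod_ne_zero_iff.mpr fun p hp => ?_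
    exact pow_ne_zero _ (Nat.prime_of_mem_primeFactors hp).ne_zero
  · conv_lhs => rw [← Nat.prod_factorization_pow_eq_self hn]
    rw [Finsupp.prod, Finsupp.prod, ← Finset.prod_pow]
    refine Finset.prod_congr rfl fun p hp => ?_
    have hp' : p.Prime := Nat.prime_of_mem_primeFactors hp
    have hd : r ∣ n.factorization p := by
      rw [Nat.factorization_def n hp']
      exact h p hp'
    rw [← pow_mul, Nat.div_mul_cancel hd]

/-- PROOF. Write `a = ± num / den`; `|num|` and `den` are coprime naturals, `padicValRat ℓ a = padicValNat ℓ |num| - padicValNat ℓ den` and at most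
one of the two is nonzero, so `r ∣ padicValNat ℓ |num|` and `r ∣ padicValNat ℓ den` for all `ℓ`.  A natural number `n ≠ 0` with `r ∣ n.factorization ℓ` for
all `ℓ` is an `r`-th power: `n = ∏ ℓ ^ (n.factorization ℓ)` (`Nat.factorization_prod_pow_eq_self`), take
`∏ ℓ ^ (n.factorization ℓ / r)`. -/
theorem exists_pow_eq_or_neg {r : ℕ} (hr : 0 < r) (a : ℚ) (ha : a ≠ 0)
    (h : ∀ ℓ : ℕ, ℓ.Prime → (r : ℤ) ∣ padicValRat ℓ a) : ∃ b : ℚ, b ≠ 0 ∧ (a = b ^ r ∨ a = -b ^ r) := by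
  have hnum : a.num.natAbs ≠ 0 := by
    rw [Ne, Int.natAbs_eq_zero, Rat.num_eq_zero]
    exact ha
  have hboth : ∀ ℓ : ℕ, ℓ.Prime → r ∣ padicValNat ℓ a.num.natAbs ∧ r ∣ padicValNat ℓ a.den := by
    intro ℓ hℓ
    have h1 := h ℓ hℓ
    have h2 : padicValRat ℓ a = (padicValNat ℓ a.num.natAbs : ℤ) - (padicValNat ℓ a.den : ℤ) := rfl
    rw [h2] at h1
    by_cases hd : ℓ ∣ a.den
    · have hn : ¬ ℓ ∣ a.num.natAbs := by
        intro hn
        have := Nat.Coprime.eq_one_of_dvd ((Nat.Coprime.coprime_dvd_left hn a.reduced).coprime_dvd_right hd)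
          (dvd_refl ℓ)
        exact hℓ.one_lt.ne' this
      have h0 : padicValNat ℓ a.num.natAbs = 0 := padicValNat.eq_zero_of_not_dvd hn
      rw [h0] at h1 ⊢
      refine ⟨dvd_zero _, ?_⟩
      rw [Nat.cast_zero, zero_sub, dvd_neg] at h1
      exact Int.natCast_dvd_natCast.mp h1
    · have h0 : padicValNat ℓ a.den = 0 := padicValNat.eq_zero_of_not_dvd hd
      rw [h0] at h1 ⊢
      refine ⟨?_, dvd_zero _⟩
      rw [Nat.cast_zero, sub_zero] at h1
      exact Int.natCast_dvd_natCast.mp h1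
  obtain ⟨m₁, hm₁, e₁⟩ := ArRat_nat_pow hnum fun ℓ hℓ => (hboth ℓ hℓ).1
  obtain ⟨m₂, hm₂, e₂⟩ := ArRat_nat_pow a.den_nz fun ℓ hℓ => (hboth ℓ hℓ).2
  have hm₁' : (m₁ : ℚ) ≠ 0 := by exact_mod_cast hm₁
  have hm₂' : (m₂ : ℚ) ≠ 0 := by exact_mod_cast hm₂
  refine ⟨(m₁ : ℚ) / m₂, div_ne_zero hm₁' hm₂', ?_⟩
  have hden : (a.den : ℚ) = (m₂ : ℚ) ^ r := by exact_mod_cast e₂
  have habs : ((a.num.natAbs : ℕ) : ℚ) = (m₁ : ℚ) ^ r := by exact_mod_cast e₁
  have ha' : a = (a.num : ℚ) / (a.den : ℚ) := (Rat.num_div_den a).symm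
  rcases Int.natAbs_eq a.num with hs | hs
  · left
    have hn : (a.num : ℚ) = (m₁ : ℚ) ^ r := by
      rw [← habs]
      conv_lhs => rw [hs]
      simp
    rw [div_pow, ← hn, ← hden]
    exact ha'
  · right
    have hn : (a.num : ℚ) = -(m₁ : ℚ) ^ r := by
      rw [← habs]
      conv_lhs => rw [hs]
      simp
    rw [div_pow, ← neg_div, ← hn, ← hden]
    exact ha'

end Fermat.Agent.S15.Sel
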