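/-
S15 / SEL-ABS, leaf AR3/4: valuations of rational numbers and of inertia-invariant elements at a place of `Qb`.
-/
import Fermat.Agent.S15.Sel.Defs
import Fermat.Agent.S36R.K0.BlockL

set_option autoImplicit false

namespace Fermat.Agent.S15.Sel

variable (A : ValuationSubring Qb) {ℓ : ℕ} (hℓ : ℓ.Prime) (hA : A.LiesOverPrime ℓ)

include hℓ hA

private theorem valuation_nat (n : ℕ) (hn : n ≠ 0) :
    A.valuation (n : Qb) = A.valuation (ℓ : Qb) ^ (padicValNat ℓ n) := by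
  have h1 := Nat.ordProj_mul_ordCompl_eq_self n ℓ
  have h2 : ¬ ℓ ∣ n / ℓ ^ n.factorization ℓ := Nat.not_dvd_ordCompl hℓ hn
  have h3 : A.valuation ((n / ℓ ^ n.factorization ℓ : ℕ) : Qb) = 1 :=
    Fermat.Agent.PT.Local.v_natCast_eq_one ⟨A, ℓ, hℓ, hA⟩ h2
  conv_lhs => rw [← h1]
  rw [Nat.cast_mul, map_mul, h3, mul_one, Nat.cast_pow, map_pow, Nat.factorization_def n hℓ]

/-- `v(a) = v(ℓ) ^ ord_ℓ(a)`.  (Write `a = ℓ ^ n * (u / w)` with `u w : ℤ` prime to `ℓ`; an integer prime to `ℓ` is a unit of `A`: Bezout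
`x u + y ℓ = 1`, `ℓ ∈ A.nonunits`, integers are in `A`; cf. `Fermat.Agent.S36R.K0L.v_intCast_eq_one`.) -/
theorem valuation_rat (a : ℚ) (ha : a ≠ 0) :
    A.valuation (algebraMap ℚ Qb a) = A.valuation (ℓ : Qb) ^ (padicValRat ℓ a) := by
  have hr : algebraMap ℚ Qb a = (a.num : Qb) / (a.den : Qb) := by
    conv_lhs => rw [← Rat.num_div_den a]
    simp
  have hv0 : A.valuation (ℓ : Qb) ≠ 0 :=
    (Valuation.ne_zero_iff _).2 (Nat.cast_ne_zero.2 hℓ.ne_zero)
  have hnum : A.valuation (a.num : Qb) = A.valuation ((a.num.natAbs : ℕ) : Qb) := by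
    rcases Int.natAbs_eq a.num with h3 | h3
    · conv_lhs => rw [h3]
      simp
    · conv_lhs => rw [h3]
      simp
  rw [hr, map_div₀, hnum, valuation_nat A hℓ hA _ (Int.natAbs_ne_zero.2 (Rat.num_ne_zero.2 ha)),
    valuation_nat A hℓ hA _ a.den_ne_zero, padicValRat, padicValInt, zpow_sub₀ hv0, zpow_natCast,
    zpow_natCast]

/-- `n ↦ v(ℓ)^n` is injective (`0 < v(ℓ) < 1`). -/
theorem zpow_valuation_injective {m n : ℤ}
    (h : A.valuation (ℓ : Qb) ^ m = A.valuation (ℓ : Qb) ^ n) : m = n := by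
  have hv0 : A.valuation (ℓ : Qb) ≠ 0 :=
    (Valuation.ne_zero_iff _).2 (Nat.cast_ne_zero.2 hℓ.ne_zero)
  have hv1 : A.valuation (ℓ : Qb) < 1 := (ValuationSubring.mem_nonunits_iff A).1 hA
  exact zpow_right_injective₀ (zero_lt_iff.2 hv0) hv1.ne h

/-- an element fixed by inertia has the valuation of a power of `ℓ`
(`Fermat.Agent.S36R.K0L.exists_zpow'` + `IntermediateField.mem_fixedField_iff`). -/
theorem exists_zpow_of_fixed {x : Qb} (hx0 : x ≠ 0) (hx : ∀ σ ∈ Ine A, σ x = x) :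
    ∃ n : ℤ, A.valuation x = A.valuation (ℓ : Qb) ^ n := by
  exact Fermat.Agent.S36R.K0L.exists_zpow' A hℓ hA
    ((IntermediateField.mem_fixedField_iff _ _).2 hx) hx0

omit hℓ hA in
/-- roots of unity are units. -/
theorem valuation_eq_one_of_pow {z : Qb} {n : ℕ} (hn : 0 < n) (hz : z ^ n = 1) : A.valuation z = 1 := by
  have h := congrArg A.valuation hz
  rw [map_pow, map_one] at h
  exact (pow_eq_one_iff.1 h).resolve_right hn.ne'

end Fermat.Agent.S15.Sel
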