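/-
S15 / SEL-ABS, leaf SUP (PURE MATHLIB): groups of prime order, index bounds.
-/
import Mathlib

set_option autoImplicit false

namespace Fermat.Agent.S15.Sel

/-- if `Z ≤ B ⊔ U` with `U` finite then `[Z : Z ⊓ B] ≤ #U`.
(`Z ⧸ B.addSubgroupOf Z` : every class has a representative `z = b + u`; map `U → (B ⊔ U) ⧸ B` is onto, and
`Z ⧸ (B ⊓ Z) ↪ (B ⊔ U) ⧸ B`.  Or: `AddSubgroup.relIndex_sup_left/right` gives `B.relIndex (B ⊔ U) = B.relIndex U ≤ #U`, `≠ 0`, and
`AddSubgroup.relIndex_dvd_of_le_right`/`relIndex_le_of_le_right` for `Z ≤ B ⊔ U`.) -/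
theorem relIndex_le_card_of_le_sup {A : Type*} [AddCommGroup A] (Z B U : AddSubgroup A) [Finite U]
    (h : Z ≤ B ⊔ U) : B.relIndex Z ≠ 0 ∧ B.relIndex Z ≤ Nat.card U := by
  have h1 : B.relIndex (B ⊔ U) = B.relIndex U := AddSubgroup.relIndex_sup_left U B
  have h2 : B.relIndex U ∣ Nat.card U := AddSubgroup.relIndex_dvd_card B U
  have h3 : B.relIndex U ≠ 0 := fun h0 => by
    rw [h0, zero_dvd_iff] at h2
    exact Nat.card_pos.ne' h2
  have h4 : B.relIndex (B ⊔ U) ≠ 0 := by rw [h1]; exact h3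
  refine ⟨fun h0 => h4 (AddSubgroup.relIndex_eq_zero_of_le_right h h0), ?_⟩
  calc B.relIndex Z ≤ B.relIndex (B ⊔ U) := AddSubgroup.relIndex_le_of_le_right h h4
    _ = B.relIndex U := h1
    _ ≤ Nat.card U := Nat.le_of_dvd Nat.card_pos h2

/-- a subgroup of prime order meets any subgroup trivially or is contained in it. -/
theorem inf_eq_bot_or_le {A : Type*} [AddCommGroup A] {r : ℕ} (hr : r.Prime) (W X : AddSubgroup A)
    (hc : Nat.card W = r) : W ⊓ X = ⊥ ∨ W ≤ X := by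
  have h1 : Nat.card (W ⊓ X : AddSubgroup A) ∣ Nat.card W :=
    AddSubgroup.card_dvd_of_le inf_le_left
  rw [hc] at h1
  have : Finite W := Nat.finite_of_card_ne_zero (by rw [hc]; exact hr.ne_zero)
  rcases (Nat.dvd_prime hr).1 h1 with h2 | h2
  · left
    exact AddSubgroup.card_eq_one.1 h2
  · right
    have h3 : W ⊓ X = W := AddSubgroup.eq_of_le_of_card_ge inf_le_left (by rw [h2, hc])
    exact inf_eq_left.1 h3

theorem relIndex_of_inf_eq_bot {A : Type*} [AddCommGroup A] {r : ℕ} (W X : AddSubgroup A)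
    (hc : Nat.card W = r) (h : W ⊓ X = ⊥) : X.relIndex W = r := by
  rw [← AddSubgroup.inf_relIndex_left, h, AddSubgroup.relIndex_bot_left, hc]

/-- elements of a group of order `r` are killed by `r`. -/
theorem nsmul_eq_zero_of_card {A : Type*} [AddCommGroup A] {r : ℕ} (W : AddSubgroup A)
    (hc : Nat.card W = r) {x : A} (hx : x ∈ W) : r • x = 0 := by
  have h1 : Nat.card W • (⟨x, hx⟩ : W) = 0 := card_nsmul_eq_zero'
  rw [hc] at h1
  exact congrArg Subtype.val h1

end Fermat.Agent.S15.Sel
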