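/-
S15 / SEL-ABS, leaf AR9: characters of finite abelian groups with values in `Qb`.
-/
import Fermat.Agent.S15.Sel.Defs
import Fermat.Agent.S15.Sel.IdxSup

set_option autoImplicit false

namespace Fermat.Agent.S15.Sel

/-- characters separate points.  (Mathlib: `CommGroup.exists_apply_ne_one_of_hasEnoughRootsOfUnity` for `Multiplicative V` and `Qb`
(`HasEnoughRootsOfUnity` holds for algebraically closed fields of characteristic zero: instance for `IsSepClosed`/`IsAlgClosed` + `NeZero`), then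
turn the `Multiplicative V →* Qbˣ` into an `AddChar V Qb` (`AddChar.toMonoidHomEquiv`).  See also `AddChar.exists_apply_ne_zero` (over `ℂ`) for the pattern.) -/
theorem exists_char_ne_one {V : Type*} [AddCommGroup V] [Finite V] {x : V} (hx : x ≠ 0) :
    ∃ ψ : AddChar V Qb, ψ x ≠ 1 := by
  have hne : Monoid.exponent (Multiplicative V) ≠ 0 := Monoid.exponent_ne_zero_of_finite
  have : NeZero ((Monoid.exponent (Multiplicative V) : ℕ) : Qb) := ⟨Nat.cast_ne_zero.2 hne⟩
  obtain ⟨φ, hφ⟩ := CommGroup.exists_apply_ne_one_of_hasEnoughRootsOfUnity (Multiplicative V) Qb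
    (a := Multiplicative.ofAdd x) (by simpa using hx)
  refine ⟨AddChar.toMonoidHomEquiv.symm ((Units.coeHom Qb).comp φ), ?_⟩
  intro h
  apply hφ
  ext
  simpa using h

theorem eq_of_forall_char {V : Type*} [AddCommGroup V] [Finite V] {x y : V}
    (h : ∀ ψ : AddChar V Qb, ψ x = ψ y) : x = y := by
  by_contra hne
  obtain ⟨ψ, hψ⟩ := exists_char_ne_one (sub_ne_zero.2 hne)
  apply hψ
  rw [sub_eq_add_neg, AddChar.map_add_eq_mul, AddChar.map_neg_eq_inv, h ψ]
  have : ψ y ≠ 0 := (ψ.val_isUnit y).ne_zero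
  field_simp

/-- on a subgroup `W` of prime order `r` some character of `V` induces a bijection `W → μ_r(Qb)`.
(`x₀ ∈ W`, `x₀ ≠ 0`; `ψ x₀ ≠ 1`; `{x ∈ W | ψ x = 1}` is a proper subgroup of `W`, hence trivial (`inf_eq_bot_or_le`); so `ψ` is injective on `W`, with
values in the `r`-th roots of unity (`nsmul_eq_zero_of_card`), a set with at most `r` elements (`Polynomial.card_nthRoots`): bijective.) -/
theorem exists_char_bij {V : Type*} [AddCommGroup V] [Finite V] {r : ℕ} (hr : r.Prime)
    (W : AddSubgroup V) (hc : Nat.card W = r) :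
    ∃ ψ : AddChar V Qb, (∀ x ∈ W, ψ x = 1 → x = 0) ∧ (∀ z : Qb, z ^ r = 1 → ∃ w ∈ W, ψ w = z) := by
  classical
  have hW : ∃ x₀ ∈ W, x₀ ≠ 0 := by
    by_contra hcon
    push Not at hcon
    have hbot : W = ⊥ := (AddSubgroup.eq_bot_iff_forall _).2 hcon
    rw [hbot, AddSubgroup.card_bot] at hc
    exact hr.one_lt.ne hc
  obtain ⟨x₀, hx₀, hx₀0⟩ := hW
  obtain ⟨ψ, hψ⟩ := exists_char_ne_one hx₀0
  let X : AddSubgroup V :=
    { carrier := {x | ψ x = 1}
      zero_mem' := ψ.map_zero_eq_one
      add_mem' := by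
        intro a b ha hb
        simp only [Set.mem_ofPred_eq] at *
        rw [AddChar.map_add_eq_mul, ha, hb, one_mul]
      neg_mem' := by
        intro a ha
        simp only [Set.mem_ofPred_eq] at *
        rw [AddChar.map_neg_eq_inv, ha, inv_one] }
  have hinj : ∀ x ∈ W, ψ x = 1 → x = 0 := by
    rcases inf_eq_bot_or_le hr W X hc with h | h
    · intro x hx hx1
      have hmem : x ∈ W ⊓ X := ⟨hx, hx1⟩
      rw [h] at hmem
      exact (AddSubgroup.mem_bot).1 hmem
    · exact absurd (h hx₀) hψ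
  refine ⟨ψ, hinj, ?_⟩
  have : Fintype W := Fintype.ofFinite W
  have hinj' : Function.Injective (fun w : W => ψ (w : V)) := by
    intro a b hab
    have h1 : ψ ((a : V) - b) = 1 := by
      have hb0 : ψ (b : V) ≠ 0 := (ψ.val_isUnit _).ne_zero
      have hab' : ψ (a : V) = ψ (b : V) := hab
      rw [sub_eq_add_neg, AddChar.map_add_eq_mul, AddChar.map_neg_eq_inv, hab',
        mul_inv_cancel₀ hb0]
    exact Subtype.ext (sub_eq_zero.1 (hinj _ (W.sub_mem a.2 b.2) h1))
  have hsub : (Finset.univ.image (fun w : W => ψ (w : V))) ⊆ Polynomial.nthRootsFinset r (1 : Qb) := by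
    intro z hz
    obtain ⟨w, -, rfl⟩ := Finset.mem_image.1 hz
    rw [Polynomial.mem_nthRootsFinset hr.pos]
    rw [← AddChar.map_nsmul_eq_pow, nsmul_eq_zero_of_card W hc w.2, AddChar.map_zero_eq_one]
  have hcard : (Polynomial.nthRootsFinset r (1 : Qb)).card ≤
      (Finset.univ.image (fun w : W => ψ (w : V))).card := by
    rw [Finset.card_image_of_injective _ hinj', Finset.card_univ, ← Nat.card_eq_fintype_card, hc]
    exact (Multiset.toFinset_card_le _).trans (Polynomial.card_nthRoots r 1)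
  have heq := Finset.eq_of_subset_of_card_le hsub hcard
  intro z hz
  have hzm : z ∈ Polynomial.nthRootsFinset r (1 : Qb) := (Polynomial.mem_nthRootsFinset hr.pos _).2 hz
  rw [← heq] at hzm
  obtain ⟨w, -, hw⟩ := Finset.mem_image.1 hzm
  exact ⟨w, w.2, hw⟩

end Fermat.Agent.S15.Sel
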