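/-
S15 / SEL-ABS, leaf AR7/8: consequences of Minkowski's theorem (`Fermat.Agent.S13...minkowski_exists`, file `S13/Glue.lean`).
-/
import Fermat.Agent.S15.Sel.Defs
import Fermat.Agent.S13.Glue
import Fermat.Agent.S36R.K0.BlockL

set_option autoImplicit false

namespace Fermat.Agent.S15.Sel

/-- a smooth homomorphism `GQ → V` which kills one inertia group above every prime is zero.
(`H := {σ | c σ = 0}` is a normal subgroup (`V` commutative), open by `hsm`; `minkowski_exists`.) -/
theorem hom_eq_zero (P : Places) {V : Type*} [AddCommGroup V] (c : GQ → V)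
    (hadd : ∀ σ τ, c (σ * τ) = c σ + c τ)
    (hsm : ∃ s : Finset Qb, ∀ σ : GQ, (∀ z ∈ s, σ z = z) → c σ = 0)
    (hI : ∀ ℓ : ℕ, ℓ.Prime → ∀ σ ∈ Ine (P.pl ℓ), c σ = 0) : ∀ σ, c σ = 0 := by
  have h1 : c 1 = 0 := by
    have := hadd 1 1
    rw [mul_one] at this
    exact (add_eq_left.1 this.symm)
  have hinv : ∀ σ, c σ⁻¹ = - c σ := by
    intro σ
    have := hadd σ σ⁻¹
    rw [mul_inv_cancel, h1] at this
    exact (neg_eq_of_add_eq_zero_right this.symm).symm
  let H : Subgroup GQ :=
    { carrier := {σ | c σ = 0}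
      mul_mem' := fun {a b} ha hb => by
        change c (a * b) = 0
        rw [hadd, show c a = 0 from ha, show c b = 0 from hb, add_zero]
      one_mem' := h1
      inv_mem' := fun {a} ha => by
        change c a⁻¹ = 0
        rw [hinv, show c a = 0 from ha, neg_zero] }
  have hnormal : H.Normal := ⟨fun n hn g => by
    change c (g * n * g⁻¹) = 0
    rw [hadd, hadd, hinv, show c n = 0 from hn]
    abel⟩
  have htop : H = ⊤ := Fermat.Agent.S13.Glue.minkowski_exists H hnormal hsm
    (fun q hq => ⟨P.pl q, P.lies q hq, fun σ hσ => hI q hq σ hσ⟩)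
  intro σ
  have : σ ∈ H := htop ▸ Subgroup.mem_top σ
  exact this

/-- an `r`-th root of unity fixed by an inertia group at `r` is rational (i.e. fixed by `GQ`).
(`H := {σ | σ z = z}` is normal because `σ z` is a power of `z` for all `σ` [or: `ℚ(z)/ℚ` is abelian/normal: `τ σ τ⁻¹ z`, write `τ⁻¹ z = z ^ k`];
open with `s = {z}`; contains `Ine (P.pl ℓ)` for `ℓ ≠ r` by `Fermat.Agent.S36R.K0L.root_mem_K0` (roots of unity of order prime to `ℓ` are fixed by
inertia at `ℓ`), and for `ℓ = r` by `hz'`.  `minkowski_exists`.) -/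
theorem root_fixed (P : Places) {r : ℕ} (hr : r.Prime) {z : Qb} (hz : z ^ r = 1)
    (hz' : ∀ σ ∈ Ine (P.pl r), σ z = z) : ∀ σ : GQ, σ z = z := by
  have hpow : ∀ τ : GQ, ∃ k : ℕ, τ z = z ^ k := by
    intro τ
    by_cases h1 : z = 1
    · exact ⟨1, by rw [h1, map_one, one_pow]⟩
    · have hprim : IsPrimitiveRoot z r := by
        have := orderOf_eq_prime hz h1 (hp := ⟨hr⟩)
        rw [← this]
        exact IsPrimitiveRoot.orderOf z
      have h2 : (τ z) ^ r = 1 := by rw [← map_pow, hz, map_one]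
      have : NeZero r := ⟨hr.ne_zero⟩
      obtain ⟨i, _, hi⟩ := hprim.eq_pow_of_pow_eq_one h2
      exact ⟨i, hi.symm⟩
  let H : Subgroup GQ :=
    { carrier := {σ | σ z = z}
      mul_mem' := fun {a b} ha hb => by
        change a (b z) = z
        rw [show b z = z from hb, show a z = z from ha]
      one_mem' := rfl
      inv_mem' := fun {a} ha => by
        change a⁻¹ z = z
        have : a z = z := ha
        calc a⁻¹ z = a⁻¹ (a z) := by rw [this]
          _ = z := by
            change (a⁻¹ * a) z = z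
            rw [inv_mul_cancel]; rfl }
  have hnormal : H.Normal := ⟨fun n hn g => by
    change g (n (g⁻¹ z)) = z
    obtain ⟨k, hk⟩ := hpow g⁻¹
    rw [hk, map_pow, show n z = z from hn, ← hk]
    change (g * g⁻¹) z = z
    rw [mul_inv_cancel]; rfl⟩
  have htop : H = ⊤ := Fermat.Agent.S13.Glue.minkowski_exists H hnormal
    ⟨{z}, fun σ hσ => hσ z (Finset.mem_singleton_self z)⟩
    (fun q hq => ⟨P.pl q, P.lies q hq, fun σ hσ => by
      by_cases hqr : q = r
      · subst hqr
        exact hz' σ hσ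
      · have hnd : ¬ q ∣ r := fun h => hqr ((Nat.prime_dvd_prime_iff_eq hq hr).1 h)
        exact (Fermat.Agent.S36R.K0L.mem_K0_iff ⟨P.pl q, q, hq, P.lies q hq⟩ z).1
          (Fermat.Agent.S36R.K0L.root_mem_K0 ⟨P.pl q, q, hq, P.lies q hq⟩ hnd hz) σ hσ⟩)
  intro σ
  have : σ ∈ H := htop ▸ Subgroup.mem_top σ
  exact this

end Fermat.Agent.S15.Sel
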