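/-
S15 / SEL-ABS: basic facts on `Z1`, `B1`, `H0` (see `Defs.lean`).
-/
import Fermat.Agent.S15.Sel.Defs

set_option autoImplicit false
set_option linter.unusedSectionVars false

namespace Fermat.Agent.S15.Sel

variable {P : Places} {r N : ℕ} {V : Type*} [AddCommGroup V] [DistribMulAction GQ V]

theorem isCoc_dd (x : V) : IsCoc (dd x) := by
  intro σ τ
  simp only [dd_apply, mul_smul, smul_sub]
  abel

/-- `(d x, x + y) ∈ Z1`.  (`coc`: `isCoc_dd`; `sm`: `D.sm`; `ur`: `D.ur`; `atr`: `D.m_quot`; `peu`: `D.pr`;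
`atN`: `σ (x + y) - (x + y) = σ x - x` because `σ y = y` by `D.f_fix`.) -/
theorem B1_le_Z1 (D : SelDat P r N V) {W : AddSubgroup V} (hW : GStable W) : B1 D W ≤ Z1 D W := by
  rintro _ ⟨x, hx, y, hy, rfl⟩
  exact
    { coc := isCoc_dd x
      sm := D.sm x
      mem1 := fun σ => W.sub_mem (hW σ x hx) hx
      mem2 := W.add_mem hx hy.1
      ur := fun ℓ h1 h2 h3 σ hσ => by simp only [dd_apply, D.ur ℓ h1 h2 h3 σ hσ x, sub_self]
      atr := fun σ hσ => D.m_quot σ hσ x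
      peu := D.pr x
      atN := fun σ hσ => by
        simp only [dd_apply, smul_add, D.f_fix σ hσ y hy.2]
        abel }

theorem Z1_mono (D : SelDat P r N V) {W W' : AddSubgroup V} (h : W ≤ W') : Z1 D W ≤ Z1 D W' :=
  fun _ hp => { hp with mem1 := fun σ => h (hp.mem1 σ), mem2 := h hp.mem2 }

theorem B1_mono (D : SelDat P r N V) {W W' : AddSubgroup V} (h : W ≤ W') : B1 D W ≤ B1 D W' := by
  rintro _ ⟨x, hx, y, hy, rfl⟩
  exact ⟨x, h hx, y, ⟨h hy.1, hy.2⟩, rfl⟩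

theorem mem_Z1_of_mem (D : SelDat P r N V) {W W' : AddSubgroup V} {p : (GQ → V) × V}
    (hp : p ∈ Z1 D W') (h1 : ∀ σ, p.1 σ ∈ W) (h2 : p.2 ∈ W) : p ∈ Z1 D W :=
  { hp with mem1 := h1, mem2 := h2 }

theorem H0_mono (D : SelDat P r N V) {W W' : AddSubgroup V} (h : W ≤ W') : H0 D W ≤ H0 D W' :=
  fun _ hx => ⟨h hx.1, hx.2⟩

theorem Z1_bot (D : SelDat P r N V) : Z1 D ⊥ = ⊥ := by
  rw [eq_bot_iff]
  intro p hp
  rw [AddSubgroup.mem_bot]
  refine Prod.ext (funext fun σ => ?_) ?_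
  · exact (AddSubgroup.mem_bot).1 (hp.mem1 σ)
  · exact (AddSubgroup.mem_bot).1 hp.mem2

/-- the start of the induction. -/
theorem good_bot (D : SelDat P r N V) : Good D ⊥ := by
  have h1 : h1 D ⊥ = 1 := by
    unfold h1
    rw [Z1_bot]
    exact AddSubgroup.relIndex_bot_right _
  have h2 : D.Vm.relIndex ⊥ = 1 := AddSubgroup.relIndex_bot_right _
  have h3 : D.Vf.relIndex ⊥ = 1 := AddSubgroup.relIndex_bot_right _
  have h4 : H0 D ⊥ = ⊥ := by
    rw [eq_bot_iff]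
    intro x hx
    exact hx.1
  refine ⟨by rw [h1]; exact one_ne_zero, ?_⟩
  rw [h1, h2, h3, h4]
  simp

end Fermat.Agent.S15.Sel
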