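/-
S15 / SEL-ABS: quotients.  `SelDat.push` : the induced local data on `V ⧸ W` (see `QuotEx.lean` for the existence of `V ⧸ W`).
-/
import Fermat.Agent.S15.Sel.Basic

set_option autoImplicit false
set_option linter.unusedSectionVars false

noncomputable section

namespace Fermat.Agent.S15.Sel

universe u

variable {P : Places} {r N : ℕ}

variable {V Vq : Type*} [AddCommGroup V] [DistribMulAction GQ V] [AddCommGroup Vq]
  [DistribMulAction GQ Vq] {W : AddSubgroup V}

theorem QMap.dd (q : QMap V Vq W) (x : V) (σ : GQ) : Sel.dd (q.π x) σ = q.π (Sel.dd x σ) := by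
  simp only [dd_apply, map_sub, q.equiv]

/-- the induced local data on the quotient: images of `Vm`, `Vf`.  All axioms follow from those of `D` by lifting elements
through `q.surj` and composing characters with `q.π` (`AddChar.compAddMonoidHom`). -/
def SelDat.push (D : SelDat P r N V) (q : QMap V Vq W) : SelDat P r N Vq where
  Vm := D.Vm.map q.π
  Vf := D.Vf.map q.π
  sm := fun x => by
    obtain ⟨x, rfl⟩ := q.surj x
    obtain ⟨s, hs⟩ := D.sm x
    exact ⟨s, fun σ hσ => by rw [q.dd, hs σ hσ, map_zero]⟩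
  ur := fun ℓ h1 h2 h3 σ hσ x => by
    obtain ⟨x, rfl⟩ := q.surj x
    rw [← q.equiv, D.ur ℓ h1 h2 h3 σ hσ x]
  f_fix := fun σ hσ x hx => by
    obtain ⟨x, hx, rfl⟩ := hx
    rw [← q.equiv, D.f_fix σ hσ x hx]
  m_quot := fun σ hσ x => by
    obtain ⟨x, rfl⟩ := q.surj x
    exact ⟨σ • x - x, D.m_quot σ hσ x, by rw [map_sub, q.equiv]⟩
  m_mult := fun σ hσ ψ x hx => by
    obtain ⟨x, hx, rfl⟩ := hx
    have := D.m_mult σ hσ (ψ.compAddMonoidHom q.π) x hx
    simpa only [AddChar.compAddMonoidHom_apply, q.equiv] using this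
  pr := fun x ψ => by
    obtain ⟨x, rfl⟩ := q.surj x
    obtain ⟨β, hβ, h⟩ := D.pr x (ψ.compAddMonoidHom q.π)
    refine ⟨β, hβ, fun σ hσ => ?_⟩
    rw [h σ hσ, AddChar.compAddMonoidHom_apply, q.dd]

@[simp] theorem SelDat.push_Vm (D : SelDat P r N V) (q : QMap V Vq W) :
    (D.push q).Vm = D.Vm.map q.π := rfl

@[simp] theorem SelDat.push_Vf (D : SelDat P r N V) (q : QMap V Vq W) :
    (D.push q).Vf = D.Vf.map q.π := rfl

theorem QMap.gstable_map (q : QMap V Vq W) {W' : AddSubgroup V} (hW' : GStable W') :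
    GStable (W'.map q.π) := by
  rintro σ _ ⟨x, hx, rfl⟩
  exact ⟨σ • x, hW' σ x hx, q.equiv σ x⟩

theorem QMap.finite (q : QMap V Vq W) [Finite V] : Finite Vq := Finite.of_surjective _ q.surj

end Fermat.Agent.S15.Sel

end
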