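/-
S15 / SEL-ABS, leaf IDX: multiplicativity of the indices `[W : W ⊓ X]` along `W ≤ W'` (finite abelian groups; only `QMap.π`,
`QMap.surj`, `QMap.ker` are used).
-/
import Fermat.Agent.S15.Sel.Defs

set_option autoImplicit false
set_option linter.unusedSectionVars false

namespace Fermat.Agent.S15.Sel

variable {V Vq : Type*} [AddCommGroup V] [DistribMulAction GQ V] [AddCommGroup Vq]
  [DistribMulAction GQ Vq] {W : AddSubgroup V}

theorem QMap.Index_ker_eq (q : QMap V Vq W) : q.π.ker = W := by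
  ext x
  exact q.ker x

/-- `#(W'/W) = [W' : W]`.  (`q.π` restricted to `W'` is onto `W'.map q.π` with kernel `W.addSubgroupOf W'`;
`QuotientAddGroup.quotientKerEquivRange` or a direct count with `AddSubgroup.card_eq_card_quotient_mul_card_addSubgroup`.) -/
theorem QMap.card_map [Finite V] (q : QMap V Vq W) {W' : AddSubgroup V} (hle : W ≤ W') :
    Nat.card (W'.map q.π) = W.relIndex W' := by
  rw [← AddSubgroup.relIndex_ker, q.Index_ker_eq]

/-- `[W' : W' ⊓ X] = [W : W ⊓ X] * [W'' : W'' ⊓ X'']`, `'' =` image in `V ⧸ W`.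
PROOF. Everything is finite.  `X.relIndex W' * #(W' ⊓ X) = #W'` (`AddSubgroup.relIndex_mul_card`-type lemmas, or
`AddSubgroup.inf_relIndex_right` + `AddSubgroup.relIndex_mul_relIndex ⊥ ..`), the same for `W` and for `W''`.
`#W' = #W * #W''`; `#(W' ⊓ X) = #(W ⊓ X) * #((W' ⊓ X).map π)` (kernel of `π` on `W' ⊓ X` is `W ⊓ X`) and
`(W' ⊓ X).map π = W'.map π ⊓ X.map π` (modular law: if `π a = π b`, `a ∈ W'`, `b ∈ X` then `a - b ∈ W ≤ W'` so `b ∈ W' ⊓ X`). -/
theorem QMap.relIndex_step [Finite V] (q : QMap V Vq W) {W' : AddSubgroup V} (hle : W ≤ W')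
    (X : AddSubgroup V) :
    X.relIndex W' = X.relIndex W * (X.map q.π).relIndex (W'.map q.π) := by
  have h1 : (X.map q.π).relIndex (W'.map q.π) = (X ⊔ W).relIndex W' := by
    rw [← AddSubgroup.relIndex_comap, AddSubgroup.comap_map_eq, q.Index_ker_eq]
  have h2 : (X ⊔ W) ⊓ W' = (X ⊓ W') ⊔ W := by
    rw [sup_comm X W, sup_inf_assoc_of_le X hle, sup_comm]
  have h3 : (X ⊓ W').relIndex ((X ⊔ W) ⊓ W') = X.relIndex W := by
    rw [h2, AddSubgroup.relIndex_sup_left, ← AddSubgroup.inf_relIndex_right, inf_assoc,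
      inf_eq_right.2 hle, AddSubgroup.inf_relIndex_right]
  have h4 := AddSubgroup.relIndex_mul_relIndex (X ⊓ W') ((X ⊔ W) ⊓ W') W'
    (inf_le_inf_right W' le_sup_left) inf_le_right
  rw [h3, AddSubgroup.inf_relIndex_right, AddSubgroup.inf_relIndex_right] at h4
  rw [h1, h4]

end Fermat.Agent.S15.Sel
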