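/-
S15 / SEL-ABS, leaf QEX: `V ⧸ W` with its `GQ`-action.
-/
import Fermat.Agent.S15.Sel.Defs

set_option autoImplicit false

namespace Fermat.Agent.S15.Sel

universe u

/-- the quotient of `V` by a stable subgroup, as an abstract `GQ`-module.
PROOF. `Vq := V ⧸ W`; `σ • ·  := QuotientAddGroup.map W W (DistribMulAction.toAddMonoidHom V σ) (hW σ)`; the axioms of
`DistribMulAction` by `QuotientAddGroup.induction_on`; `π := QuotientAddGroup.mk' W`; `ker`: `QuotientAddGroup.eq_zero_iff`. -/
theorem exists_qmap {V : Type u} [AddCommGroup V] [DistribMulAction GQ V] (W : AddSubgroup V)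
    (hW : GStable W) :
    ∃ (Vq : Type u) (_ : AddCommGroup Vq) (_ : DistribMulAction GQ Vq), Nonempty (QMap V Vq W) := by
  let act : GQ → (V ⧸ W) →+ (V ⧸ W) := fun σ =>
    QuotientAddGroup.map W W (DistribSMul.toAddMonoidHom V σ) (fun x hx => hW σ x hx)
  have hact : ∀ (σ : GQ) (x : V), act σ (QuotientAddGroup.mk x) = QuotientAddGroup.mk (σ • x) :=
    fun σ x => rfl
  let inst : DistribMulAction GQ (V ⧸ W) :=
    { smul := fun σ x => act σ x
      one_smul := fun x => by
        induction x using QuotientAddGroup.induction_on with
        | H x =>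
          show act 1 (QuotientAddGroup.mk x) = _
          rw [hact, one_smul]
      mul_smul := fun σ τ x => by
        induction x using QuotientAddGroup.induction_on with
        | H x =>
          show act (σ * τ) (QuotientAddGroup.mk x) = act σ (act τ (QuotientAddGroup.mk x))
          rw [hact, hact, hact, mul_smul]
      smul_zero := fun σ => map_zero (act σ)
      smul_add := fun σ x y => map_add (act σ) x y }
  refine ⟨V ⧸ W, inferInstance, inst, ⟨?_⟩⟩
  exact
    { π := QuotientAddGroup.mk' W
      surj := QuotientAddGroup.mk'_surjective W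
      ker := fun x => QuotientAddGroup.eq_zero_iff x
      equiv := fun σ x => rfl }

end Fermat.Agent.S15.Sel
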