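/-
S15 / SEL-ABS, leaf COR: from the cone to honest cohomology classes.
-/
import Fermat.Agent.S15.Sel.Basic

set_option autoImplicit false
set_option linter.unusedSectionVars false

namespace Fermat.Agent.S15.Sel

variable {P : Places} {r N : ℕ} {V : Type*} [AddCommGroup V] [DistribMulAction GQ V]

/-- the group of coboundaries `GQ → V`. -/
def Bd (V : Type*) [AddCommGroup V] [DistribMulAction GQ V] : AddSubgroup (GQ → V) where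
  carrier := {c | ∃ x : V, c = dd x}
  zero_mem' := ⟨0, dd_zero.symm⟩
  add_mem' := by
    rintro _ _ ⟨x, rfl⟩ ⟨y, rfl⟩
    exact ⟨x + y, (dd_add x y).symm⟩
  neg_mem' := by
    rintro _ ⟨x, rfl⟩
    exact ⟨-x, (dd_neg x).symm⟩

/-- (COR) from the cone to honest cohomology classes.
PROOF. `Z' := Z1 D ⊤ ⊓ 𝒦.comap (AddMonoidHom.fst _ _)`.  `AddMonoidHom.fst` maps `Z'` onto `𝒦` (`h𝒦`) and `B1 D ⊤` into `Bd V`.  So
`𝒦 ⧸ (Bd V ⊓ 𝒦)` is a quotient of `Z' ⧸ (B1 ⊓ Z')`, which embeds into `Z1 ⧸ B1`: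
`(Bd V).relIndex 𝒦 ≤ (B1 D ⊤).relIndex Z' ≤ (B1 D ⊤).relIndex (Z1 D ⊤)` (`AddSubgroup.relIndex_le_of_le_right`-type lemma, needs `hfin`),
all `≠ 0`. -/
theorem relIndex_Bd_le (D : SelDat P r N V) (𝒦 : AddSubgroup (GQ → V))
    (h𝒦 : ∀ c ∈ 𝒦, ∃ m : V, (c, m) ∈ Z1 D ⊤) (hfin : (B1 D ⊤).relIndex (Z1 D ⊤) ≠ 0) :
    (Bd V).relIndex 𝒦 ≠ 0 ∧ (Bd V).relIndex 𝒦 ≤ (B1 D ⊤).relIndex (Z1 D ⊤) := by
  set f : (GQ → V) × V →+ (GQ → V) := AddMonoidHom.fst (GQ → V) V with hf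
  set Z' : AddSubgroup ((GQ → V) × V) := Z1 D ⊤ ⊓ 𝒦.comap f with hZ'
  have hmap : Z'.map f = 𝒦 := by
    apply le_antisymm
    · rintro _ ⟨p, hp, rfl⟩
      exact hp.2
    · intro c hc
      obtain ⟨m, hm⟩ := h𝒦 c hc
      exact ⟨(c, m), ⟨hm, hc⟩, rfl⟩
  have hB : B1 D ⊤ ≤ (Bd V).comap f := by
    rintro _ ⟨x, -, y, -, rfl⟩
    exact ⟨x, rfl⟩
  have h1 : (Bd V).relIndex 𝒦 = ((Bd V).comap f).relIndex Z' := by
    rw [AddSubgroup.relIndex_comap, hmap]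
  have h2 : (B1 D ⊤).relIndex Z' ≠ 0 := fun h =>
    hfin (AddSubgroup.relIndex_eq_zero_of_le_right (inf_le_left : Z' ≤ Z1 D ⊤) h)
  have h3 : (B1 D ⊤).relIndex Z' ≤ (B1 D ⊤).relIndex (Z1 D ⊤) :=
    AddSubgroup.relIndex_le_of_le_right (inf_le_left : Z' ≤ Z1 D ⊤) hfin
  have h4 : ((Bd V).comap f).relIndex Z' ∣ (B1 D ⊤).relIndex Z' :=
    AddSubgroup.relIndex_dvd_of_le_left Z' hB
  rw [h1]
  exact ⟨fun h => h2 (by rw [h] at h4; exact Nat.eq_zero_of_zero_dvd h4),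
    (Nat.le_of_dvd (Nat.pos_of_ne_zero h2) h4).trans h3⟩

end Fermat.Agent.S15.Sel
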