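/-
S15 / SEL-ABS, leaf BA-ET: the simple constituents which are "etale at r" (`W ⊓ Vm = ⊥`).
-/
import Fermat.Agent.S15.Sel.Basic
import Fermat.Agent.S15.Sel.ArMink
import Fermat.Agent.S15.Sel.ArChar

set_option autoImplicit false
set_option linter.unusedSectionVars false

namespace Fermat.Agent.S15.Sel

variable {P : Places} {r N : ℕ} {V : Type*} [AddCommGroup V] [DistribMulAction GQ V]

/-- `GQ` acts trivially on an etale constituent.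
PROOF. First alternative of `htype`: nothing to do.  Second: let `x ∈ W`, `ψ` a character, `z := ψ x`; `z ^ r = ψ (r • x) = 1`
(`nsmul_eq_zero_of_card`, `AddChar.map_nsmul_eq_pow`).  For `σ ∈ Ine (P.pl r)`: `σ • x - x ∈ W ⊓ Vm = ⊥` (`hW`, `D.m_quot`), so `σ z = ψ (σ • x) = z`.
`root_fixed`: all of `GQ` fixes `z`.  Hence `ψ (σ • x) = σ (ψ x) = ψ x` for all `ψ`: `eq_of_forall_char`. -/
theorem triv_of_et [Finite V] (hr : r.Prime) (D : SelDat P r N V) {W : AddSubgroup V}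
    (hW : GStable W) (hc : Nat.card W = r)
    (htype : (∀ σ : GQ, ∀ x ∈ W, σ • x = x) ∨
      (∀ σ : GQ, ∀ ψ : AddChar V Qb, ∀ x ∈ W, ψ (σ • x) = σ (ψ x)))
    (hm : W ⊓ D.Vm = ⊥) : ∀ σ : GQ, ∀ x ∈ W, σ • x = x := by
  rcases htype with h | h
  · exact h
  · intro σ x hx
    apply eq_of_forall_char
    intro ψ
    have hz : (ψ x) ^ r = 1 := by
      rw [← AddChar.map_nsmul_eq_pow, nsmul_eq_zero_of_card W hc hx, AddChar.map_zero_eq_one]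
    have hz' : ∀ τ ∈ Ine (P.pl r), τ (ψ x) = ψ x := by
      intro τ hτ
      have h1 : τ • x - x ∈ W ⊓ D.Vm := ⟨W.sub_mem (hW τ x hx) hx, D.m_quot τ hτ x⟩
      rw [hm, AddSubgroup.mem_bot, sub_eq_zero] at h1
      rw [← h τ ψ x hx, h1]
    rw [h σ ψ x hx, root_fixed P hr hz hz' σ]

/-- `H¹ = 0` for an etale constituent.
PROOF. Let `p = (c, m) ∈ Z1 D W`.  By `htriv` `c` is additive (`p.coc`, `c τ ∈ W`).  It kills `Ine (P.pl ℓ)` for every prime `ℓ`: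
`ℓ = r`: `c σ ∈ W ⊓ Vm = ⊥`; `ℓ = N`: `c σ = σ • m - m = 0`; otherwise `p.ur`.  `hom_eq_zero`: `c = 0`.
Then `p = (dd m, m + 0)` since `dd m = 0`. -/
theorem Z1_le_B1_of_et (D : SelDat P r N V) {W : AddSubgroup V}
    (htriv : ∀ σ : GQ, ∀ x ∈ W, σ • x = x) (hm : W ⊓ D.Vm = ⊥) : Z1 D W ≤ B1 D W := by
  intro p hp
  have hadd : ∀ σ τ, p.1 (σ * τ) = p.1 σ + p.1 τ := by
    intro σ τ
    rw [hp.coc σ τ, htriv σ _ (hp.mem1 τ)]
  have hI : ∀ ℓ : ℕ, ℓ.Prime → ∀ σ ∈ Ine (P.pl ℓ), p.1 σ = 0 := by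
    intro ℓ hℓ σ hσ
    by_cases h1 : ℓ = r
    · subst h1
      have h3 : p.1 σ ∈ W ⊓ D.Vm := ⟨hp.mem1 σ, hp.atr σ hσ⟩
      rwa [hm, AddSubgroup.mem_bot] at h3
    by_cases h2 : ℓ = N
    · subst h2
      rw [hp.atN σ hσ, htriv σ _ hp.mem2, sub_self]
    · exact hp.ur ℓ hℓ h1 h2 σ hσ
  have h0 := hom_eq_zero P p.1 hadd hp.sm hI
  refine ⟨p.2, hp.mem2, 0, (W ⊓ D.Vf).zero_mem, Prod.ext (funext fun σ => ?_) ?_⟩
  · rw [h0 σ]
    show 0 = σ • p.2 - p.2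
    rw [htriv σ _ hp.mem2, sub_self]
  · show p.2 = p.2 + 0
    rw [add_zero]

end Fermat.Agent.S15.Sel
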