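/-
S15 / SEL-ABS, leaf AR6 (KUM): a global `μ_r`-valued cocycle which is locally everywhere the Kummer cocycle of a unit is the Kummer cocycle of `±1`.
-/
import Fermat.Agent.S15.Sel.ArH90
import Fermat.Agent.S15.Sel.ArRat
import Fermat.Agent.S15.Sel.ArVal

set_option autoImplicit false

namespace Fermat.Agent.S15.Sel

/-- PROOF. `h90` gives `β₀ ≠ 0` with `σ β₀ = b σ * β₀`.  `σ (β₀ ^ r) = β₀ ^ r` so `β₀ ^ r = a` is rational (`exists_rat_of_fixed`), `a ≠ 0`.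
For a prime `ℓ` take `β_ℓ` from `hloc`: `β₀ / β_ℓ` is fixed by `Ine (P.pl ℓ)`, so `v(β₀) = v(β₀ / β_ℓ) = v(ℓ) ^ n` (`exists_zpow_of_fixed`),
`v(a) = v(ℓ) ^ (r n)`, and `padicValRat ℓ a = r n` (`valuation_rat`, `zpow_valuation_injective`).  `exists_pow_eq_or_neg`: `a = ± b₀ ^ r`.
`β := β₀ / b₀`. -/
theorem kum (P : Places) {r : ℕ} (hr : 0 < r) (b : GQ → Qb) (hb : ∀ σ, b σ ^ r = 1)
    (hcoc : ∀ σ τ, b (σ * τ) = b σ * σ (b τ))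
    (hsm : ∃ s : Finset Qb, ∀ σ : GQ, (∀ z ∈ s, σ z = z) → b σ = 1)
    (hloc : ∀ ℓ : ℕ, ℓ.Prime →
      ∃ β : Qb, (P.pl ℓ).valuation β = 1 ∧ ∀ σ ∈ Ine (P.pl ℓ), σ β = b σ * β) :
    ∃ β : Qb, (β ^ r = 1 ∨ β ^ r = -1) ∧ ∀ σ : GQ, σ β = b σ * β := by
  have hb0 : ∀ σ, b σ ≠ 0 := by
    intro σ h
    have := hb σ
    rw [h, zero_pow hr.ne'] at this
    exact zero_ne_one this
  obtain ⟨β₀, hβ₀, hσ₀⟩ := h90 b hb0 hcoc hsm
  obtain ⟨a, ha⟩ := exists_rat_of_fixed (β₀ ^ r) (fun σ => by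
    rw [map_pow, hσ₀, mul_pow, hb, one_mul])
  have ha0 : a ≠ 0 := by
    rintro rfl
    rw [map_zero] at ha
    exact pow_ne_zero r hβ₀ ha.symm
  have hdvd : ∀ ℓ : ℕ, ℓ.Prime → (r : ℤ) ∣ padicValRat ℓ a := by
    intro ℓ hℓ
    obtain ⟨β, hβ1, hβ⟩ := hloc ℓ hℓ
    have hβ0 : β ≠ 0 := by
      rintro rfl
      rw [map_zero] at hβ1
      exact zero_ne_one hβ1
    obtain ⟨n, hn⟩ := exists_zpow_of_fixed (P.pl ℓ) hℓ (P.lies ℓ hℓ) (x := β₀ / β)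
      (div_ne_zero hβ₀ hβ0) (fun σ hσ => by
        rw [map_div₀, hσ₀, hβ σ hσ, mul_div_mul_left _ _ (hb0 σ)])
    rw [map_div₀, hβ1, div_one] at hn
    have h1 : (P.pl ℓ).valuation (algebraMap ℚ Qb a) = (P.pl ℓ).valuation (ℓ : Qb) ^ ((r : ℤ) * n) := by
      rw [ha, map_pow, hn, mul_comm, zpow_mul, zpow_natCast]
    rw [valuation_rat (P.pl ℓ) hℓ (P.lies ℓ hℓ) a ha0] at h1
    exact ⟨n, zpow_valuation_injective (P.pl ℓ) hℓ (P.lies ℓ hℓ) h1⟩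
  obtain ⟨b₀, hb₀, hab⟩ := exists_pow_eq_or_neg hr a ha0 hdvd
  have hb₀' : algebraMap ℚ Qb b₀ ≠ 0 := by
    rw [Ne, map_eq_zero]; exact hb₀
  refine ⟨β₀ / algebraMap ℚ Qb b₀, ?_, fun σ => ?_⟩
  · rw [div_pow, ← ha, ← map_pow]
    have hp : algebraMap ℚ Qb (b₀ ^ r) ≠ 0 := by
      rw [map_pow]; exact pow_ne_zero r hb₀'
    rcases hab with h | h
    · left
      rw [h, div_self hp]
    · right
      rw [h, map_neg, neg_div, div_self hp]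
  · rw [map_div₀, hσ₀, σ.commutes, mul_div_assoc]

end Fermat.Agent.S15.Sel
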