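/-
S15 / SEL-ABS, leaf BA-MU: the simple constituents which are "multiplicative at r" (`W ≤ Vm`): Kummer theory.
-/
import Fermat.Agent.S15.Sel.Basic
import Fermat.Agent.S15.Sel.ArMink
import Fermat.Agent.S15.Sel.ArChar
import Fermat.Agent.S15.Sel.ArKum

set_option autoImplicit false
set_option linter.unusedSectionVars false

namespace Fermat.Agent.S15.Sel

variable {P : Places} {r N : ℕ} {V : Type*} [AddCommGroup V] [DistribMulAction GQ V]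

/-- a multiplicative constituent is globally of type `μ`.
PROOF. Second alternative: nothing to do.  First: `z := ψ x`, `z ^ r = 1`; for `σ ∈ Ine (P.pl r)`: `σ z = ψ (σ • x)` (`D.m_mult`, `x ∈ Vm`) `= ψ x = z`.
`root_fixed`: `GQ` fixes `z`; so `σ (ψ x) = ψ x = ψ (σ • x)`. -/
theorem mu_of_mult (hr : r.Prime) (D : SelDat P r N V) {W : AddSubgroup V} (hc : Nat.card W = r)
    (htype : (∀ σ : GQ, ∀ x ∈ W, σ • x = x) ∨
      (∀ σ : GQ, ∀ ψ : AddChar V Qb, ∀ x ∈ W, ψ (σ • x) = σ (ψ x)))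
    (hm : W ≤ D.Vm) : ∀ σ : GQ, ∀ ψ : AddChar V Qb, ∀ x ∈ W, ψ (σ • x) = σ (ψ x) := by
  rcases htype with h | h
  · intro σ ψ x hx
    have hz : (ψ x) ^ r = 1 := by
      rw [← AddChar.map_nsmul_eq_pow, nsmul_eq_zero_of_card W hc hx, AddChar.map_zero_eq_one]
    have hz' : ∀ τ ∈ Ine (P.pl r), τ (ψ x) = ψ x := by
      intro τ hτ
      rw [← D.m_mult τ hτ ψ x (hm hx), h τ x hx]
    rw [h σ x hx, root_fixed P hr hz hz' σ]
  · exact h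

/-- Kummer theory for a cone cocycle with values in a constituent of type `μ`.
PROOF. Apply `kum P hr.pos (fun σ => ψ (p.1 σ))`:
`hb`: `ψ (c σ) ^ r = ψ (r • c σ) = 1`; `hcoc`: `ψ (c σ + σ • c τ) = ψ (c σ) * σ (ψ (c τ))` by `hμ`; `hsm`: from `p.sm` (`ψ 0 = 1`);
`hloc ℓ`: if `ℓ = r`: `hp.peu ψ`; if `ℓ = N` (`≠ r`): `β := ψ p.2`, a root of unity (`valuation_eq_one_of_pow`), and for `σ ∈ Ine (P.pl N)`:
`ψ (c σ) * ψ m = ψ (σ • m - m) * ψ m = ψ (σ • m) = σ (ψ m)`; otherwise `β := 1`, `c σ = 0`. -/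
theorem exists_kum (hr : r.Prime) (D : SelDat P r N V) {W : AddSubgroup V} (hc : Nat.card W = r)
    (hμ : ∀ σ : GQ, ∀ ψ : AddChar V Qb, ∀ x ∈ W, ψ (σ • x) = σ (ψ x)) (ψ : AddChar V Qb)
    {p : (GQ → V) × V} (hp : p ∈ Z1 D W) :
    ∃ β : Qb, (β ^ r = 1 ∨ β ^ r = -1) ∧ ∀ σ : GQ, σ β = ψ (p.1 σ) * β := by
  have hp' : InZ1 D W p := hp
  have hpow : ∀ x ∈ W, (ψ x) ^ r = 1 := by
    intro x hx
    rw [← AddChar.map_nsmul_eq_pow, nsmul_eq_zero_of_card W hc hx, AddChar.map_zero_eq_one]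
  refine kum P hr.pos (fun σ => ψ (p.1 σ)) (fun σ => hpow _ (hp'.mem1 σ)) ?_ ?_ ?_
  · intro σ τ
    show ψ (p.1 (σ * τ)) = ψ (p.1 σ) * σ (ψ (p.1 τ))
    rw [hp'.coc σ τ, AddChar.map_add_eq_mul, hμ σ ψ _ (hp'.mem1 τ)]
  · obtain ⟨s, hs⟩ := hp'.sm
    refine ⟨s, fun σ hσ => ?_⟩
    show ψ (p.1 σ) = 1
    rw [hs σ hσ, AddChar.map_zero_eq_one]
  · intro ℓ hℓ
    by_cases h1 : ℓ = r
    · subst h1
      exact hp'.peu ψ
    · by_cases h2 : ℓ = N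
      · subst h2
        refine ⟨ψ p.2, valuation_eq_one_of_pow _ hr.pos (hpow _ hp'.mem2), fun σ hσ => ?_⟩
        show σ (ψ p.2) = ψ (p.1 σ) * ψ p.2
        rw [← hμ σ ψ _ hp'.mem2, ← AddChar.map_add_eq_mul, hp'.atN σ hσ, sub_add_cancel]
      · refine ⟨1, map_one _, fun σ hσ => ?_⟩
        show σ 1 = ψ (p.1 σ) * 1
        rw [hp'.ur ℓ hℓ h1 h2 σ hσ, AddChar.map_zero_eq_one, map_one, mul_one]

end Fermat.Agent.S15.Sel
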