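/-
S15 / SEL-ABS, leaf BA-ODD: multiplicative constituents, `r` odd: every cone cocycle is `dd w`.
-/
import Fermat.Agent.S15.Sel.BaMu

set_option autoImplicit false
set_option linter.unusedSectionVars false

namespace Fermat.Agent.S15.Sel

variable {P : Places} {r N : ℕ} {V : Type*} [AddCommGroup V] [DistribMulAction GQ V]

/-- PROOF. `ψ` from `exists_char_bij`.  `β` from `exists_kum`.  As `r` is odd, `β' := β` or `-β` satisfies `β' ^ r = 1` (`Odd.neg_pow`) and still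
`σ β' = ψ (c σ) * β'`.  `β' = ψ w`, `w ∈ W`.  Then `ψ (c σ) * ψ w = σ (ψ w) = ψ (σ • w)` (`hμ`), so `ψ (c σ - (σ • w - w)) = 1` with
`c σ - (σ • w - w) ∈ W` (`hW`), hence `c σ = σ • w - w`. -/
theorem exists_dd_of_odd [Finite V] (hr : r.Prime) (hodd : r ≠ 2) (D : SelDat P r N V)
    {W : AddSubgroup V} (hW : GStable W) (hc : Nat.card W = r)
    (hμ : ∀ σ : GQ, ∀ ψ : AddChar V Qb, ∀ x ∈ W, ψ (σ • x) = σ (ψ x))
    {p : (GQ → V) × V} (hp : p ∈ Z1 D W) : ∃ w ∈ W, p.1 = dd w := by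
  obtain ⟨ψ, hinj, hsurj⟩ := exists_char_bij hr W hc
  obtain ⟨β, hβ, hσβ⟩ := exists_kum hr D hc hμ ψ hp
  have hrodd : Odd r := hr.odd_of_ne_two hodd
  obtain ⟨β', hβ', hσβ'⟩ : ∃ β' : Qb, β' ^ r = 1 ∧ ∀ σ : GQ, σ β' = ψ (p.1 σ) * β' := by
    rcases hβ with h1 | h1
    · exact ⟨β, h1, hσβ⟩
    · refine ⟨-β, by rw [hrodd.neg_pow, h1, neg_neg], fun σ => ?_⟩
      rw [map_neg, hσβ σ, mul_neg]
  obtain ⟨w, hw, hψw⟩ := hsurj β' hβ'
  refine ⟨w, hw, funext fun σ => ?_⟩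
  have hp' : InZ1 D W p := hp
  have hmem : p.1 σ - (σ • w - w) ∈ W :=
    W.sub_mem (hp'.mem1 σ) (W.sub_mem (hW σ w hw) hw)
  have h0 : ψ w ≠ 0 := (ψ.val_isUnit w).ne_zero
  have h1 : ψ (p.1 σ) * ψ w = ψ (σ • w) := by
    rw [hμ σ ψ w hw, hψw, hσβ' σ]
  have h2 : ψ (p.1 σ - (σ • w - w)) = 1 := by
    have h3 : p.1 σ - (σ • w - w) = p.1 σ + w + -(σ • w) := by abel
    have h4 : ψ (σ • w) ≠ 0 := (ψ.val_isUnit _).ne_zero
    rw [h3, AddChar.map_add_eq_mul, AddChar.map_add_eq_mul, AddChar.map_neg_eq_inv, h1,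
      mul_inv_cancel₀ h4]
  rw [dd_apply]
  exact sub_eq_zero.1 (hinj _ hmem h2)

end Fermat.Agent.S15.Sel
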