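/-
S15 / SEL-ABS, leaf BA-TWO: multiplicative constituents, `r = 2`.
-/
import Fermat.Agent.S15.Sel.BaMu

set_option autoImplicit false
set_option linter.unusedSectionVars false

namespace Fermat.Agent.S15.Sel

variable {P : Places} {N : ℕ} {V : Type*} [AddCommGroup V] [DistribMulAction GQ V]

/-- a group of order two has no automorphism.  (`W = {0, x₀}`; `σ • x₀ ∈ W`, `σ • x₀ ≠ 0`.) -/
theorem triv_of_card_two {W : AddSubgroup V} (hW : GStable W) (hc : Nat.card W = 2) :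
    ∀ σ : GQ, ∀ x ∈ W, σ • x = x := by
  intro σ x hx
  rcases eq_or_ne x 0 with rfl | hx0
  · exact smul_zero σ
  · obtain ⟨y, -, hy⟩ := (Nat.card_eq_two_iff' (0 : W)).1 hc
    have h1 : (⟨x, hx⟩ : W) = y := hy _ (fun h => hx0 (congrArg Subtype.val h))
    have hσ0 : σ • x ≠ 0 := by
      intro h
      apply hx0
      have h2 : σ⁻¹ • σ • x = 0 := by rw [h, smul_zero]
      rwa [inv_smul_smul] at h2
    have h2 : (⟨σ • x, hW σ x hx⟩ : W) = y := hy _ (fun h => hσ0 (congrArg Subtype.val h))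
    exact congrArg Subtype.val (h2.trans h1.symm)

/-- two cone cocycles with nonzero first component have the same first component.
PROOF. `ψ` from `exists_char_bij` (`r = 2`), `hμ` holds because `GQ` acts trivially on `W` and `ψ x = ± 1` is rational
(`(ψ x)^2 = 1`).  `β, β'` from `exists_kum` for `p, p'`.  If `β ^ 2 = 1` then `β = ± 1`, `σ β = β`, so `ψ (p.1 σ) = 1`, `p.1 σ = 0` for all `σ`:
excluded.  So `β ^ 2 = -1 = β' ^ 2`, `β' = ± β`, `ψ (p.1 σ) = σ β / β = σ β' / β' = ψ (p'.1 σ)`, and `ψ` is injective on `W`. -/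
theorem fst_eq_of_ne_zero [Finite V] (D : SelDat P 2 N V) {W : AddSubgroup V} (hW : GStable W)
    (hc : Nat.card W = 2) {p p' : (GQ → V) × V} (hp : p ∈ Z1 D W) (hp' : p' ∈ Z1 D W)
    (h : p.1 ≠ 0) (h' : p'.1 ≠ 0) : p.1 = p'.1 := by
  have htriv := triv_of_card_two hW hc
  obtain ⟨ψ, hinj, -⟩ := exists_char_bij Nat.prime_two W hc
  have hμ : ∀ σ : GQ, ∀ ψ' : AddChar V Qb, ∀ x ∈ W, ψ' (σ • x) = σ (ψ' x) := by
    intro σ ψ' x hx
    rw [htriv σ x hx]
    have h1 : ψ' x ^ 2 = 1 := by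
      rw [← AddChar.map_nsmul_eq_pow, nsmul_eq_zero_of_card W hc hx, AddChar.map_zero_eq_one]
    rcases sq_eq_one_iff.1 h1 with h2 | h2
    · rw [h2, map_one]
    · rw [h2, map_neg, map_one]
  -- a Kummer generator with `β ^ 2 = 1` gives the zero cocycle
  have key : ∀ q : (GQ → V) × V, q ∈ Z1 D W → q.1 ≠ 0 →
      ∃ β : Qb, β ^ 2 = -1 ∧ ∀ σ : GQ, σ β = ψ (q.1 σ) * β := by
    intro q hq hq0
    obtain ⟨β, hβ, hσ⟩ := exists_kum Nat.prime_two D hc hμ ψ hq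
    rcases hβ with hβ | hβ
    · exfalso
      apply hq0
      funext σ
      have hβ0 : β ≠ 0 := by
        rintro rfl
        norm_num at hβ
      have hfix : σ β = β := by
        rcases sq_eq_one_iff.1 hβ with h2 | h2
        · rw [h2, map_one]
        · rw [h2, map_neg, map_one]
      have h3 := hσ σ
      rw [hfix] at h3
      have h4 : ψ (q.1 σ) = 1 := by
        have h5 : 1 * β = ψ (q.1 σ) * β := by rw [one_mul]; exact h3
        exact (mul_right_cancel₀ hβ0 h5).symm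
      exact hinj _ (hq.mem1 σ) h4
    · exact ⟨β, hβ, hσ⟩
  obtain ⟨β, hβ, hσ⟩ := key p hp h
  obtain ⟨β', hβ', hσ'⟩ := key p' hp' h'
  have hβ0 : β' ≠ 0 := by
    rintro rfl
    norm_num at hβ'
  funext σ
  have h1 : ψ (p.1 σ) * β' = ψ (p'.1 σ) * β' := by
    rw [← hσ' σ]
    rcases sq_eq_sq_iff_eq_or_eq_neg.1 (hβ'.trans hβ.symm) with h2 | h2
    · rw [h2, hσ σ]
    · rw [h2, map_neg, hσ σ, mul_neg]
  have h2 : ψ (p.1 σ) = ψ (p'.1 σ) := mul_right_cancel₀ hβ0 h1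
  have h3 : ψ (p.1 σ - p'.1 σ) = 1 := by
    rw [sub_eq_add_neg, AddChar.map_add_eq_mul, AddChar.map_neg_eq_inv, h2]
    exact mul_inv_cancel₀ (ψ.val_isUnit _).ne_zero
  exact sub_eq_zero.1 (hinj _ (W.sub_mem (hp.mem1 σ) (hp'.mem1 σ)) h3)

/-- `h¹ ≤ 2`.
PROOF. `(0, m) = (dd m, m + 0) ∈ B1 D W` for `m ∈ W` (`triv_of_card_two`).  If all `p ∈ Z1 D W` have `p.1 = 0` then `Z1 ≤ B1 = B1 ⊔ ⊥`.
Otherwise fix `p₀` with `p₀.1 ≠ 0`; `U := AddSubgroup.zmultiples p₀` has at most two elements (`2 • p₀ = 0`: `nsmul_eq_zero_of_card` componentwise), and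
`p ∈ Z1` is in `B1` or `p - p₀ ∈ B1` (`fst_eq_of_ne_zero`).  `relIndex_le_card_of_le_sup`. -/
theorem h1_le_two [Finite V] (D : SelDat P 2 N V) {W : AddSubgroup V} (hW : GStable W)
    (hc : Nat.card W = 2) : h1 D W ≠ 0 ∧ h1 D W ≤ 2 := by
  have htriv := triv_of_card_two hW hc
  have hB : ∀ q ∈ Z1 D W, q.1 = 0 → q ∈ B1 D W := by
    intro q hq hq0
    refine ⟨q.2, hq.mem2, 0, (W ⊓ D.Vf).zero_mem, Prod.ext ?_ ?_⟩
    · rw [hq0]
      funext σ
      show (0 : V) = σ • q.2 - q.2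
      rw [htriv σ _ hq.mem2, sub_self]
    · show q.2 = q.2 + 0
      rw [add_zero]
  unfold h1
  by_cases hall : ∀ q ∈ Z1 D W, q.1 = 0
  · obtain ⟨h1, h2⟩ := relIndex_le_card_of_le_sup (Z1 D W) (B1 D W) ⊥
      (fun q hq => AddSubgroup.mem_sup_left (hB q hq (hall q hq)))
    refine ⟨h1, h2.trans ?_⟩
    simp
  · push Not at hall
    obtain ⟨p₀, hp₀, hp₀0⟩ := hall
    have h2p : 2 • p₀ = 0 := by
      refine Prod.ext (funext fun σ => ?_) ?_
      · show 2 • p₀.1 σ = 0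
        exact nsmul_eq_zero_of_card W hc (hp₀.mem1 σ)
      · show 2 • p₀.2 = 0
        exact nsmul_eq_zero_of_card W hc hp₀.mem2
    have hfo : IsOfFinAddOrder p₀ := isOfFinAddOrder_iff_nsmul_eq_zero.2 ⟨2, two_pos, h2p⟩
    have hfin : Finite (AddSubgroup.zmultiples p₀) := finite_zmultiples.2 hfo
    obtain ⟨h1, h2⟩ := relIndex_le_card_of_le_sup (Z1 D W) (B1 D W) (AddSubgroup.zmultiples p₀) (by
      intro q hq
      by_cases hq0 : q.1 = 0
      · exact AddSubgroup.mem_sup_left (hB q hq hq0)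
      · have h3 : q.1 = p₀.1 := fst_eq_of_ne_zero D hW hc hq hp₀ hq0 hp₀0
        have h4 : q - p₀ ∈ B1 D W :=
          hB _ ((Z1 D W).sub_mem hq hp₀) (by rw [Prod.fst_sub, h3, sub_self])
        have h5 : q = (q - p₀) + p₀ := by abel
        rw [h5]
        exact AddSubgroup.add_mem_sup h4 (AddSubgroup.mem_zmultiples p₀))
    refine ⟨h1, h2.trans ?_⟩
    rw [Nat.card_zmultiples]
    exact Nat.le_of_dvd two_pos (addOrderOf_dvd_of_nsmul_eq_zero h2p)

end Fermat.Agent.S15.Sel
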