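/-
S15 / SEL-ABS: Mazur's inequality for the simple constituents (order `r`).
-/
import Fermat.Agent.S15.Sel.BaEt
import Fermat.Agent.S15.Sel.BaOdd
import Fermat.Agent.S15.Sel.BaTwo

set_option autoImplicit false
set_option linter.unusedSectionVars false

namespace Fermat.Agent.S15.Sel

variable {P : Places} {r N : ℕ} {V : Type*} [AddCommGroup V] [DistribMulAction GQ V]

theorem card_H0_pos [Finite V] (D : SelDat P r N V) (W : AddSubgroup V) : 0 < Nat.card (H0 D W) :=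
  Nat.card_pos

theorem H0_eq_of_triv (D : SelDat P r N V) {W : AddSubgroup V}
    (htriv : ∀ σ : GQ, ∀ x ∈ W, σ • x = x) (hf : W ≤ D.Vf) : H0 D W = W := by
  ext x
  exact ⟨fun h => h.1, fun h => ⟨h, hf h, fun σ => htriv σ x h⟩⟩

theorem h1_eq_one_of_le (D : SelDat P r N V) {W : AddSubgroup V} (h : Z1 D W ≤ B1 D W) :
    h1 D W = 1 := AddSubgroup.relIndex_eq_one.2 h

/-- etale constituents. -/
theorem good_et [Finite V] (hr : r.Prime) (D : SelDat P r N V) {W : AddSubgroup V}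
    (hW : GStable W) (hc : Nat.card W = r)
    (htype : (∀ σ : GQ, ∀ x ∈ W, σ • x = x) ∨
      (∀ σ : GQ, ∀ ψ : AddChar V Qb, ∀ x ∈ W, ψ (σ • x) = σ (ψ x)))
    (hm : W ⊓ D.Vm = ⊥) : Good D W := by
  have htriv := triv_of_et hr D hW hc htype hm
  have h1 : h1 D W = 1 := h1_eq_one_of_le D (Z1_le_B1_of_et D htriv hm)
  have hmr : D.Vm.relIndex W = r := relIndex_of_inf_eq_bot W D.Vm hc hm
  refine ⟨by rw [h1]; exact one_ne_zero, ?_⟩
  rw [h1, hmr, one_mul]
  rcases inf_eq_bot_or_le hr W D.Vf hc with hf | hf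
  · rw [relIndex_of_inf_eq_bot W D.Vf hc hf]
    exact Nat.le_mul_of_pos_left _ (card_H0_pos D W)
  · rw [H0_eq_of_triv D htriv hf, hc, AddSubgroup.relIndex_eq_one.2 hf, mul_one]

/-- the subgroup `{(0, u) | u ∈ W}`. -/
def UU (W : AddSubgroup V) : AddSubgroup ((GQ → V) × V) := AddSubgroup.prod ⊥ W

theorem card_UU (W : AddSubgroup V) : Nat.card (UU W) = Nat.card W := by
  unfold UU
  rw [Nat.card_congr (AddSubgroup.prodEquiv ⊥ W).toEquiv, Nat.card_prod]
  simp

/-- multiplicative constituents, `r` odd. -/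
theorem good_mult_odd [Finite V] (hr : r.Prime) (hodd : r ≠ 2) (D : SelDat P r N V)
    {W : AddSubgroup V} (hW : GStable W) (hc : Nat.card W = r)
    (htype : (∀ σ : GQ, ∀ x ∈ W, σ • x = x) ∨
      (∀ σ : GQ, ∀ ψ : AddChar V Qb, ∀ x ∈ W, ψ (σ • x) = σ (ψ x)))
    (hm : W ≤ D.Vm) : Good D W := by
  have hμ := mu_of_mult hr D hc htype hm
  have hmr : D.Vm.relIndex W = 1 := AddSubgroup.relIndex_eq_one.2 hm
  rcases inf_eq_bot_or_le hr W D.Vf hc with hf | hf
  · have hle : Z1 D W ≤ B1 D W ⊔ UU W := by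
      intro p hp
      obtain ⟨w, hw, hpw⟩ := exists_dd_of_odd hr hodd D hW hc hμ hp
      have h1 : (dd w, w + 0) ∈ B1 D W := ⟨w, hw, 0, (W ⊓ D.Vf).zero_mem, rfl⟩
      have h2 : ((0 : GQ → V), p.2 - w) ∈ UU W :=
        AddSubgroup.mem_prod.2 ⟨AddSubgroup.mem_bot.2 rfl, W.sub_mem hp.mem2 hw⟩
      have h3 : p = (dd w, w + 0) + ((0 : GQ → V), p.2 - w) := by
        refine Prod.ext ?_ ?_
        · simp [hpw]
        · simp
      rw [h3]
      exact AddSubgroup.add_mem_sup h1 h2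
    have : Finite (UU W) := by
      apply Nat.finite_of_card_ne_zero
      rw [card_UU, hc]
      exact hr.ne_zero
    obtain ⟨h0, hle'⟩ := relIndex_le_card_of_le_sup (Z1 D W) (B1 D W) (UU W) hle
    rw [card_UU, hc] at hle'
    refine ⟨h0, ?_⟩
    rw [hmr, mul_one, relIndex_of_inf_eq_bot W D.Vf hc hf]
    exact hle'.trans (Nat.le_mul_of_pos_left _ (card_H0_pos D W))
  · have hle : Z1 D W ≤ B1 D W := by
      intro p hp
      obtain ⟨w, hw, hpw⟩ := exists_dd_of_odd hr hodd D hW hc hμ hp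
      refine ⟨w, hw, p.2 - w, ⟨W.sub_mem hp.mem2 hw, hf (W.sub_mem hp.mem2 hw)⟩, ?_⟩
      refine Prod.ext hpw ?_
      simp
    have h1 : h1 D W = 1 := h1_eq_one_of_le D hle
    refine ⟨by rw [h1]; exact one_ne_zero, ?_⟩
    rw [h1, hmr, AddSubgroup.relIndex_eq_one.2 hf, mul_one, mul_one]
    exact card_H0_pos D W

/-- multiplicative constituents, `r = 2`. -/
theorem good_mult_two [Finite V] (D : SelDat P 2 N V) {W : AddSubgroup V} (hW : GStable W)
    (hc : Nat.card W = 2) (hm : W ≤ D.Vm) : Good D W := by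
  obtain ⟨h0, hle⟩ := h1_le_two D hW hc
  have hmr : D.Vm.relIndex W = 1 := AddSubgroup.relIndex_eq_one.2 hm
  refine ⟨h0, ?_⟩
  rw [hmr, mul_one]
  rcases inf_eq_bot_or_le Nat.prime_two W D.Vf hc with hf | hf
  · rw [relIndex_of_inf_eq_bot W D.Vf hc hf]
    exact hle.trans (Nat.le_mul_of_pos_left _ (card_H0_pos D W))
  · rw [H0_eq_of_triv D (triv_of_card_two hW hc) hf, hc, AddSubgroup.relIndex_eq_one.2 hf, mul_one]
    exact hle

/-- **Mazur's inequality for a simple constituent.** -/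
theorem base [Finite V] (hr : r.Prime) (D : SelDat P r N V) {W : AddSubgroup V} (hW : GStable W)
    (hc : Nat.card W = r)
    (htype : (∀ σ : GQ, ∀ x ∈ W, σ • x = x) ∨
      (∀ σ : GQ, ∀ ψ : AddChar V Qb, ∀ x ∈ W, ψ (σ • x) = σ (ψ x))) : Good D W := by
  rcases inf_eq_bot_or_le hr W D.Vm hc with hm | hm
  · exact good_et hr D hW hc htype hm
  · by_cases h2 : r = 2
    · subst h2
      exact good_mult_two D hW hc hm
    · exact good_mult_odd hr h2 D hW hc htype hm

end Fermat.Agent.S15.Sel
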