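/-
S15 / SEL-ABS: **Mazur's inequality** `h¹ - h⁰ ≤ δ - α` for a `GQ`-module with a composition series whose factors are `ℤ/r` or `μ_r`.

MAIN RESULTS
* `main` : `Good D ⊤`, i.e. `[Z1 : B1] ≠ 0` and `[Z1 : B1] * [V : Vm] ≤ #(V^GQ ⊓ Vf) * [V : Vf]`.
* `card_image_le` : the form used by FIN/SEL: a group `𝒦` of cocycles each of which can be completed to a cone cocycle has image of order
  `≤ #V^GQ * [V : Vf] / [V : Vm]` in `H¹(GQ, V)`.
-/
import Fermat.Agent.S15.Sel.Exact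
import Fermat.Agent.S15.Sel.QuotEx
import Fermat.Agent.S15.Sel.Index
import Fermat.Agent.S15.Sel.Base
import Fermat.Agent.S15.Sel.Cor

set_option autoImplicit false
set_option linter.unusedSectionVars false

namespace Fermat.Agent.S15.Sel

universe u

variable {P : Places} {r N : ℕ} {V : Type u} [AddCommGroup V] [DistribMulAction GQ V]

/-- the arithmetic of the induction step. -/
theorem step_arith {h1' h1 h1q h0' h0 h0q m mq f fq : ℕ} (hh0 : 0 < h0) (hh0q : 0 < h0q)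
    (hA : h1' * (h0 * h0q) ≤ h1 * h1q * h0') (hG : h1 * m ≤ h0 * f) (hB : h1q * mq ≤ h0q * fq) :
    h1' * (m * mq) ≤ h0' * (f * fq) := by
  have hpos : 0 < h0 * h0q := Nat.mul_pos hh0 hh0q
  refine Nat.le_of_mul_le_mul_right ?_ hpos
  calc h1' * (m * mq) * (h0 * h0q) = (h1' * (h0 * h0q)) * (m * mq) := by ring
    _ ≤ (h1 * h1q * h0') * (m * mq) := Nat.mul_le_mul_right _ hA
    _ = h0' * ((h1 * m) * (h1q * mq)) := by ring
    _ ≤ h0' * ((h0 * f) * (h0q * fq)) := Nat.mul_le_mul_left _ (Nat.mul_le_mul hG hB)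
    _ = h0' * (f * fq) * (h0 * h0q) := by ring

/-- **the induction step.** -/
theorem good_step [Finite V] (hr : r.Prime) (D : SelDat P r N V) {W W' : AddSubgroup V}
    (hW : GStable W) (hW' : GStable W') (hs : IsStep r W W') (hg : Good D W) : Good D W' := by
  obtain ⟨Vq, _, _, ⟨q⟩⟩ := exists_qmap W hW
  have : Finite Vq := q.finite
  have hc : Nat.card (W'.map q.π) = r := by rw [q.card_map hs.le, hs.idx]
  have htype : (∀ σ : GQ, ∀ x ∈ W'.map q.π, σ • x = x) ∨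
      (∀ σ : GQ, ∀ ψ : AddChar Vq Qb, ∀ x ∈ W'.map q.π, ψ (σ • x) = σ (ψ x)) := by
    rcases hs.type with h | h
    · left
      rintro σ _ ⟨x, hx, rfl⟩
      rw [← q.equiv, ← sub_eq_zero, ← map_sub, q.ker]
      exact h σ x hx
    · right
      rintro σ ψ _ ⟨x, hx, rfl⟩
      have := h σ (ψ.compAddMonoidHom q.π) (fun w hw => by
        rw [AddChar.compAddMonoidHom_apply, (q.ker w).2 hw, AddChar.map_zero_eq_one]) x hx
      simpa only [AddChar.compAddMonoidHom_apply, q.equiv] using this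
  have hb : Good (D.push q) (W'.map q.π) := base hr (D.push q) (q.gstable_map hW') hc htype
  obtain ⟨h0, hA⟩ := ex_ineq D q hs.le hW hW' hg.1 hb.1
  refine ⟨h0, ?_⟩
  rw [q.relIndex_step hs.le D.Vm, q.relIndex_step hs.le D.Vf]
  exact step_arith (card_H0_pos D W) (card_H0_pos (D.push q) _) hA hg.2 hb.2

/-- **Mazur's inequality.** -/
theorem main [Finite V] (hr : r.Prime) (D : SelDat P r N V) (s : ℕ) (F : ℕ → AddSubgroup V)
    (h0 : F 0 = ⊥) (hs : F s = ⊤) (hst : ∀ i, GStable (F i))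
    (hstep : ∀ i < s, IsStep r (F i) (F (i + 1))) : Good D ⊤ := by
  have key : ∀ i ≤ s, Good D (F i) := by
    intro i
    induction i with
    | zero => intro _; rw [h0]; exact good_bot D
    | succ i ih =>
      intro hi
      exact good_step hr D (hst i) (hst (i + 1)) (hstep i hi) (ih (Nat.le_of_succ_le hi))
  rw [← hs]
  exact key s le_rfl

/-- explicit form. -/
theorem main' [Finite V] (hr : r.Prime) (D : SelDat P r N V) (s : ℕ) (F : ℕ → AddSubgroup V)
    (h0 : F 0 = ⊥) (hs : F s = ⊤) (hst : ∀ i, GStable (F i))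
    (hstep : ∀ i < s, IsStep r (F i) (F (i + 1))) :
    (B1 D ⊤).relIndex (Z1 D ⊤) ≠ 0 ∧
      (B1 D ⊤).relIndex (Z1 D ⊤) * D.Vm.index ≤ Nat.card (H0 D ⊤) * D.Vf.index := by
  have := main hr D s F h0 hs hst hstep
  rw [← AddSubgroup.relIndex_top_right D.Vm, ← AddSubgroup.relIndex_top_right D.Vf]
  exact this

/-- **the form used by SEL/FIN.** -/
theorem card_image_le [Finite V] (hr : r.Prime) (D : SelDat P r N V) (s : ℕ)
    (F : ℕ → AddSubgroup V) (h0 : F 0 = ⊥) (hs : F s = ⊤) (hst : ∀ i, GStable (F i))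
    (hstep : ∀ i < s, IsStep r (F i) (F (i + 1))) (𝒦 : AddSubgroup (GQ → V))
    (h𝒦 : ∀ c ∈ 𝒦, ∃ m : V, (c, m) ∈ Z1 D ⊤) :
    (Bd V).relIndex 𝒦 ≠ 0 ∧
      (Bd V).relIndex 𝒦 * D.Vm.index ≤ Nat.card (H0 D ⊤) * D.Vf.index := by
  obtain ⟨h1, h2⟩ := main' hr D s F h0 hs hst hstep
  obtain ⟨h3, h4⟩ := relIndex_Bd_le D 𝒦 h𝒦 h1
  exact ⟨h3, (Nat.mul_le_mul_right _ h4).trans h2⟩

end Fermat.Agent.S15.Sel
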