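/-
S15 / SEL-ABS: push forward of cone cocycles along `q : V → V ⧸ W`.
-/
import Fermat.Agent.S15.Sel.Quot

set_option autoImplicit false
set_option linter.unusedSectionVars false

noncomputable section

namespace Fermat.Agent.S15.Sel

variable {P : Places} {r N : ℕ}
variable {V Vq : Type*} [AddCommGroup V] [DistribMulAction GQ V] [AddCommGroup Vq]
  [DistribMulAction GQ Vq] {W : AddSubgroup V}

/-- push forward of pairs `(c, m)`. -/
def Phi (q : QMap V Vq W) : ((GQ → V) × V) →+ ((GQ → Vq) × Vq) :=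
  AddMonoidHom.prodMap (AddMonoidHom.compLeft q.π GQ) q.π

@[simp] theorem Phi_fst (q : QMap V Vq W) (p : (GQ → V) × V) (σ : GQ) :
    (Phi q p).1 σ = q.π (p.1 σ) := rfl

@[simp] theorem Phi_snd (q : QMap V Vq W) (p : (GQ → V) × V) : (Phi q p).2 = q.π p.2 := rfl

/-- (EX1) `Phi` maps `Z1 D W'` into `Z1''`.  Field by field; `peu`: apply `hp.peu` to `ψ.compAddMonoidHom q.π`. -/
theorem Phi_mem_Z1 (D : SelDat P r N V) (q : QMap V Vq W) {W' : AddSubgroup V} {p : (GQ → V) × V}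
    (hp : p ∈ Z1 D W') : Phi q p ∈ Z1 (D.push q) (W'.map q.π) :=
  { coc := fun σ τ => by simp only [Phi_fst, hp.coc σ τ, map_add, q.equiv]
    sm := by
      obtain ⟨s, hs⟩ := hp.sm
      exact ⟨s, fun σ hσ => by rw [Phi_fst, hs σ hσ, map_zero]⟩
    mem1 := fun σ => ⟨p.1 σ, hp.mem1 σ, rfl⟩
    mem2 := ⟨p.2, hp.mem2, rfl⟩
    ur := fun ℓ h1 h2 h3 σ hσ => by rw [Phi_fst, hp.ur ℓ h1 h2 h3 σ hσ, map_zero]
    atr := fun σ hσ => ⟨p.1 σ, hp.atr σ hσ, rfl⟩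
    peu := fun ψ => by
      obtain ⟨β, hβ, h⟩ := hp.peu (ψ.compAddMonoidHom q.π)
      exact ⟨β, hβ, fun σ hσ => by rw [h σ hσ, AddChar.compAddMonoidHom_apply, Phi_fst]⟩
    atN := fun σ hσ => by rw [Phi_fst, hp.atN σ hσ, map_sub, q.equiv, Phi_snd] }

end Fermat.Agent.S15.Sel

end
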