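/-
S15 / SEL-ABS, leaf EX4: the connecting homomorphism as a count.
-/
import Fermat.Agent.S15.Sel.Phi

set_option autoImplicit false
set_option linter.unusedSectionVars false

noncomputable section

namespace Fermat.Agent.S15.Sel

variable {P : Places} {r N : ℕ}
variable {V Vq : Type*} [AddCommGroup V] [DistribMulAction GQ V] [AddCommGroup Vq]
  [DistribMulAction GQ Vq] {W : AddSubgroup V}

/-- the group `Y = {y ∈ W' ⊓ Vf | ∀ σ, σ • y - y ∈ W}`. -/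
def ExConn_Y (D : SelDat P r N V) (W W' : AddSubgroup V) : AddSubgroup V where
  carrier := {y | y ∈ W' ∧ y ∈ D.Vf ∧ ∀ σ : GQ, σ • y - y ∈ W}
  zero_mem' := ⟨W'.zero_mem, D.Vf.zero_mem, fun σ => by
    rw [smul_zero, sub_zero]
    exact W.zero_mem⟩
  add_mem' := fun {a b} ha hb => ⟨W'.add_mem ha.1 hb.1, D.Vf.add_mem ha.2.1 hb.2.1, fun σ => by
    have : σ • (a + b) - (a + b) = (σ • a - a) + (σ • b - b) := by rw [smul_add]; abel
    rw [this]
    exact W.add_mem (ha.2.2 σ) (hb.2.2 σ)⟩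
  neg_mem' := fun {a} ha => ⟨W'.neg_mem ha.1, D.Vf.neg_mem ha.2.1, fun σ => by
    have : σ • (-a) - (-a) = -(σ • a - a) := by rw [smul_neg]; abel
    rw [this]
    exact W.neg_mem (ha.2.2 σ)⟩

theorem ExConn_mem_Y {D : SelDat P r N V} {W W' : AddSubgroup V} {y : V} :
    y ∈ ExConn_Y D W W' ↔ y ∈ W' ∧ y ∈ D.Vf ∧ ∀ σ : GQ, σ • y - y ∈ W := Iff.rfl

/-- `y ↦ (dd y, 0)`. -/
def ExConn_del (V : Type*) [AddCommGroup V] [DistribMulAction GQ V] : V →+ (GQ → V) × V where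
  toFun y := (dd y, 0)
  map_zero' := by rw [dd_zero]; rfl
  map_add' a b := by rw [dd_add, Prod.mk_add_mk, add_zero]

theorem ExConn_del_apply (y : V) : ExConn_del V y = (dd y, 0) := rfl

/-- (i) the image of `Y`. -/
theorem ExConn_map_Y (D : SelDat P r N V) (q : QMap V Vq W) {W' : AddSubgroup V} (hle : W ≤ W') :
    (ExConn_Y D W W').map q.π = H0 (D.push q) (W'.map q.π) := by
  ext x
  constructor
  · rintro ⟨y, hy, rfl⟩
    refine ⟨⟨y, hy.1, rfl⟩, ⟨y, hy.2.1, rfl⟩, fun σ => ?_⟩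
    rw [← q.equiv, ← sub_eq_zero, ← map_sub, q.ker]
    exact hy.2.2 σ
  · rintro ⟨⟨a, ha, hax⟩, ⟨f, hf, hfx⟩, hinv⟩
    have h1 : a - f ∈ W := by rw [← q.ker, map_sub, hax, hfx, sub_self]
    have h2 : f ∈ W' := by
      have : f = a - (a - f) := by abel
      rw [this]
      exact W'.sub_mem ha (hle h1)
    refine ⟨f, ⟨h2, hf, fun σ => ?_⟩, hfx⟩
    rw [← q.ker, map_sub, q.equiv, hfx, hinv σ, sub_self]

theorem ExConn_inf_Y (D : SelDat P r N V) {W W' : AddSubgroup V} (hle : W ≤ W')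
    (hW : GStable W) : W ⊓ ExConn_Y D W W' = W ⊓ D.Vf := by
  ext x
  constructor
  · rintro ⟨h1, h2⟩
    exact ⟨h1, h2.2.1⟩
  · rintro ⟨h1, h2⟩
    exact ⟨h1, hle h1, h2, fun σ => W.sub_mem (hW σ x h1) h1⟩

theorem ExConn_H0_le_Y (D : SelDat P r N V) (W W' : AddSubgroup V) :
    H0 D W' ≤ ExConn_Y D W W' := by
  intro x hx
  refine ⟨hx.1, hx.2.1, fun σ => ?_⟩
  rw [hx.2.2 σ, sub_self]
  exact W.zero_mem

/-- (ii) -/
theorem ExConn_comap_inf (D : SelDat P r N V) {W W' : AddSubgroup V} (hle : W ≤ W')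
    (hW : GStable W) :
    (B1 D W).comap (ExConn_del V) ⊓ ExConn_Y D W W' = H0 D W' ⊔ (W ⊓ D.Vf) := by
  apply le_antisymm
  · rintro y ⟨hyB, hyY⟩
    obtain ⟨w, hw, u, hu, he⟩ := hyB
    rw [ExConn_del_apply, Prod.mk.injEq] at he
    obtain ⟨he1, he2⟩ := he
    have hwu : w = -u := eq_neg_of_add_eq_zero_left he2.symm
    have hwA : w ∈ W ⊓ D.Vf := by
      rw [hwu]
      exact (W ⊓ D.Vf).neg_mem hu
    have hH : y - w ∈ H0 D W' := by
      refine ⟨W'.sub_mem hyY.1 (hle hw), D.Vf.sub_mem hyY.2.1 hwA.2, fun σ => ?_⟩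
      have h1 := congrFun he1 σ
      simp only [dd_apply] at h1
      rw [smul_sub, sub_eq_sub_iff_sub_eq_sub]
      exact h1
    have : y = (y - w) + w := by abel
    rw [this]
    exact AddSubgroup.add_mem_sup hH hwA
  · refine le_inf ?_ (sup_le (ExConn_H0_le_Y D W W') ?_)
    · refine sup_le ?_ ?_
      · intro x hx
        refine ⟨0, W.zero_mem, 0, (W ⊓ D.Vf).zero_mem, ?_⟩
        rw [ExConn_del_apply, dd_zero, add_zero]
        congr 1
        funext σ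
        rw [dd_apply, hx.2.2 σ, sub_self]
        rfl
      · intro x hx
        exact ⟨x, hx.1, -x, (W ⊓ D.Vf).neg_mem hx, by rw [ExConn_del_apply, add_neg_cancel]⟩
    · rw [← ExConn_inf_Y D hle hW]
      exact inf_le_right

theorem ExConn_map_del_le (D : SelDat P r N V) {W W' : AddSubgroup V} (hW' : GStable W') :
    (ExConn_Y D W W').map (ExConn_del V) ≤ Z1 D W ⊓ B1 D W' := by
  rintro _ ⟨y, hy, rfl⟩
  have hB : ExConn_del V y ∈ B1 D W' :=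
    ⟨y, hy.1, -y, (W' ⊓ D.Vf).neg_mem ⟨hy.1, hy.2.1⟩, by rw [ExConn_del_apply, add_neg_cancel]⟩
  exact ⟨mem_Z1_of_mem D (B1_le_Z1 D hW' hB) (fun σ => hy.2.2 σ) W.zero_mem, hB⟩

theorem ExConn_inf_H0 (D : SelDat P r N V) {W W' : AddSubgroup V} (hle : W ≤ W') :
    (W ⊓ D.Vf) ⊓ H0 D W' = H0 D W := by
  ext x
  constructor
  · rintro ⟨h1, h2⟩
    exact ⟨h1.1, h1.2, h2.2.2⟩
  · intro h
    exact ⟨⟨h.1, h.2.1⟩, hle h.1, h.2.1, h.2.2⟩

/-- (EX4) the connecting homomorphism, as a count.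
PROOF (all groups are subgroups of the finite group `V`, except the target).
`Y := {y ∈ W' ⊓ Vf | ∀ σ, σ • y - y ∈ W}` (a subgroup).  `∂ : Y → Z1 D W ⊓ B1 D W'`, `y ↦ (dd y, 0) = (dd y, y + (-y))`
(in `Z1 D W`: it is in `B1 D W' ≤ Z1 D W'` and has values in `W`: `mem_Z1_of_mem`).
(i) `q.π` maps `Y` ONTO `H0 (D.push q) (W'.map q.π)` (modular law as in EX2: an element of `W'.map π ⊓ Vf.map π` is `π b`, `b ∈ W' ⊓ Vf`;
invariance of `π b` means `σ b - b ∈ W`), with kernel `W ⊓ Vf`:  `#Y = #H0'' * #(W ⊓ Vf)`.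
(ii) `(dd y, 0) ∈ B1 D W ↔ y ∈ H0 D W' ⊔ (W ⊓ Vf)`: if `(dd y, 0) = (dd w, w + u)` then `w = -u ∈ W ⊓ Vf` and `dd (y - w) = 0`, so
`y - w ∈ H0 D W'`.  Conversely clear.
(iii) `#(H0 D W' ⊔ (W ⊓ Vf)) * #(H0 D W) = #(H0 D W') * #(W ⊓ Vf)` as `H0 D W' ⊓ (W ⊓ Vf) = H0 D W`.
(iv) `[Y : H0 D W' ⊔ (W ⊓ Vf)] ≤ (B1 D W).relIndex (Z1 D W ⊓ B1 D W')` by the injection of quotients induced by `∂`
(the right side is `≠ 0` by `hfin`).  Combine. -/
theorem conn_count [Finite V] (D : SelDat P r N V) (q : QMap V Vq W) {W' : AddSubgroup V}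
    (hle : W ≤ W') (hW : GStable W) (hW' : GStable W')
    (hfin : (B1 D W).relIndex (Z1 D W ⊓ B1 D W') ≠ 0) :
    Nat.card (H0 (D.push q) (W'.map q.π)) * Nat.card (H0 D W) ≤
      (B1 D W).relIndex (Z1 D W ⊓ B1 D W') * Nat.card (H0 D W') := by
  have hAS : W ⊓ D.Vf ≤ H0 D W' ⊔ (W ⊓ D.Vf) := le_sup_right
  have hAY : W ⊓ D.Vf ≤ ExConn_Y D W W' := by
    rw [← ExConn_inf_Y D hle hW]
    exact inf_le_right
  have hSY : H0 D W' ⊔ (W ⊓ D.Vf) ≤ ExConn_Y D W W' := sup_le (ExConn_H0_le_Y D W W') hAY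
  have hker : q.π.ker = W := by
    ext x
    rw [AddMonoidHom.mem_ker, q.ker]
  have e1 : (W ⊓ D.Vf).relIndex (ExConn_Y D W W') = Nat.card (H0 (D.push q) (W'.map q.π)) := by
    rw [← ExConn_inf_Y D hle hW, AddSubgroup.inf_relIndex_right, ← ExConn_map_Y D q hle,
      ← AddSubgroup.relIndex_ker, hker]
  have e2 := AddSubgroup.relIndex_mul_relIndex _ _ _ hAS hSY
  have e3 : (W ⊓ D.Vf).relIndex (H0 D W' ⊔ (W ⊓ D.Vf)) = (W ⊓ D.Vf).relIndex (H0 D W') :=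
    AddSubgroup.relIndex_sup_right _ _
  have e4 : Nat.card (H0 D W) * (W ⊓ D.Vf).relIndex (H0 D W') = Nat.card (H0 D W') := by
    have := AddSubgroup.relIndex_mul_relIndex ⊥ ((W ⊓ D.Vf) ⊓ H0 D W') (H0 D W') bot_le inf_le_right
    rwa [AddSubgroup.relIndex_bot_left, AddSubgroup.relIndex_bot_left,
      AddSubgroup.inf_relIndex_right, ExConn_inf_H0 D hle] at this
  have e5 : (H0 D W' ⊔ (W ⊓ D.Vf)).relIndex (ExConn_Y D W W') ≤
      (B1 D W).relIndex (Z1 D W ⊓ B1 D W') := by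
    rw [← ExConn_comap_inf D hle hW, AddSubgroup.inf_relIndex_right, AddSubgroup.relIndex_comap]
    exact AddSubgroup.relIndex_le_of_le_right (ExConn_map_del_le D hW') hfin
  calc Nat.card (H0 (D.push q) (W'.map q.π)) * Nat.card (H0 D W)
      = (H0 D W' ⊔ (W ⊓ D.Vf)).relIndex (ExConn_Y D W W') *
          (Nat.card (H0 D W) * (W ⊓ D.Vf).relIndex (H0 D W')) := by
        rw [← e1, ← e2, e3]
        ring
    _ = (H0 D W' ⊔ (W ⊓ D.Vf)).relIndex (ExConn_Y D W W') * Nat.card (H0 D W') := by rw [e4]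
    _ ≤ (B1 D W).relIndex (Z1 D W ⊓ B1 D W') * Nat.card (H0 D W') := Nat.mul_le_mul_right _ e5

end Fermat.Agent.S15.Sel

end
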