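/-
S15 / SEL-ABS, leaf EX3: an abstract index lemma (PURE MATHLIB).
-/
import Mathlib

set_option autoImplicit false

namespace Fermat.Agent.S15.Sel

/-- (EX3) abstract index lemma.
PROOF. `S := Z ⊔ B'`, `B' ≤ S ≤ Z'`.  `AddSubgroup.relIndex_mul_relIndex B' S Z'` : `B'.relIndex S * S.relIndex Z' = B'.relIndex Z'`.
`B'.relIndex S = B'.relIndex Z` (`AddSubgroup.relIndex_sup_right`/`_left`; everything is normal).
`S.relIndex Z' ≤ B''.relIndex Z''` and `≠ 0` : the map `Z' ⧸ (S.addSubgroupOf Z') → Z'' ⧸ (B''.addSubgroupOf Z'')` induced by `Φ`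
(`QuotientAddGroup.map`) is injective by `hker`; the target is finite (`h''`); `Nat.card_le_card_of_injective`,
`Finite.of_injective`. -/
theorem relIndex_le_of_hom {A A'' : Type*} [AddCommGroup A] [AddCommGroup A''] (Φ : A →+ A'')
    (Z' B' Z : AddSubgroup A) (Z'' B'' : AddSubgroup A'') (hBZ : B' ≤ Z') (hZ : Z ≤ Z')
    (hΦ : ∀ p ∈ Z', Φ p ∈ Z'') (hker : ∀ p ∈ Z', Φ p ∈ B'' → p ∈ Z ⊔ B')
    (h'' : B''.relIndex Z'' ≠ 0) (hZ0 : B'.relIndex Z ≠ 0) :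
    B'.relIndex Z' ≠ 0 ∧ B'.relIndex Z' ≤ B''.relIndex Z'' * B'.relIndex Z := by
  have hBS : B' ≤ Z ⊔ B' := le_sup_right
  have hSZ : Z ⊔ B' ≤ Z' := sup_le hZ hBZ
  have h1 : B'.relIndex (Z ⊔ B') * (Z ⊔ B').relIndex Z' = B'.relIndex Z' :=
    AddSubgroup.relIndex_mul_relIndex B' (Z ⊔ B') Z' hBS hSZ
  have h2 : B'.relIndex (Z ⊔ B') = B'.relIndex Z := AddSubgroup.relIndex_sup_right Z B'
  -- the preimage of `B''`
  have hmap : Z'.map Φ ≤ Z'' := by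
    rintro _ ⟨p, hp, rfl⟩
    exact hΦ p hp
  have h3 : (B''.comap Φ).relIndex Z' = B''.relIndex (Z'.map Φ) := AddSubgroup.relIndex_comap B'' Φ Z'
  have h4 : B''.relIndex (Z'.map Φ) ≤ B''.relIndex Z'' := AddSubgroup.relIndex_le_of_le_right hmap h''
  have h5 : B''.relIndex (Z'.map Φ) ≠ 0 := fun h =>
    h'' (AddSubgroup.relIndex_eq_zero_of_le_right hmap h)
  have h6 : (B''.comap Φ ⊓ Z').relIndex Z' = (B''.comap Φ).relIndex Z' :=
    AddSubgroup.inf_relIndex_right _ _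
  have hle : B''.comap Φ ⊓ Z' ≤ Z ⊔ B' := fun p hp => hker p hp.2 hp.1
  have h7 : (B''.comap Φ ⊓ Z').relIndex Z' ≠ 0 := by rw [h6, h3]; exact h5
  have h8 : (Z ⊔ B').relIndex Z' ≤ (B''.comap Φ ⊓ Z').relIndex Z' :=
    AddSubgroup.relIndex_le_of_le_left hle h7
  have h9 : (Z ⊔ B').relIndex Z' ≠ 0 := fun h =>
    h7 (AddSubgroup.relIndex_eq_zero_of_le_left hle h)
  constructor
  · rw [← h1, h2]
    exact mul_ne_zero hZ0 h9
  · rw [← h1, h2, mul_comm]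
    exact Nat.mul_le_mul_right _ (h8.trans (by rw [h6, h3]; exact h4))

end Fermat.Agent.S15.Sel
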