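/-
S15 / SEL-ABS, leaf EX2: exactness at `H¹(W')`.
-/
import Fermat.Agent.S15.Sel.Phi

set_option autoImplicit false
set_option linter.unusedSectionVars false

noncomputable section

namespace Fermat.Agent.S15.Sel

variable {P : Places} {r N : ℕ}
variable {V Vq : Type*} [AddCommGroup V] [DistribMulAction GQ V] [AddCommGroup Vq]
  [DistribMulAction GQ Vq] {W : AddSubgroup V}

/-- (EX2) exactness at `H¹(W')`.
PROOF. `Phi q p = (dd x'', x'' + y'')` with `x'' = q.π x`, `x ∈ W'`, `y'' ∈ W'.map π ⊓ Vf.map π`.  Modular law: `y'' = π a = π b`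
with `a ∈ W'`, `b ∈ Vf`, so `a - b ∈ W ≤ W'` (`q.ker`), hence `b ∈ W' ⊓ Vf` : put `y := b`.  `p' := (dd x, x + y) ∈ B1 D W' ≤ Z1 D W'`
(`B1_le_Z1`), `p - p' ∈ Z1 D W'` has both components killed by `π` (`q.dd`), i.e. in `W` (`q.ker`): `mem_Z1_of_mem`.
`p = (p - p') + p'` : `AddSubgroup.add_mem_sup`. -/
theorem mem_sup_of_Phi_mem_B1 (D : SelDat P r N V) (q : QMap V Vq W) {W' : AddSubgroup V}
    (hle : W ≤ W') (hW' : GStable W') {p : (GQ → V) × V} (hp : p ∈ Z1 D W')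
    (hB : Phi q p ∈ B1 (D.push q) (W'.map q.π)) : p ∈ Z1 D W ⊔ B1 D W' := by
  obtain ⟨x'', hx'', y'', hy'', hEq⟩ := hB
  obtain ⟨x, hx, rfl⟩ := hx''
  obtain ⟨⟨a, ha, hay⟩, ⟨b, hb, hby⟩⟩ := hy''
  have hab : a - b ∈ W := (q.ker _).1 (by rw [map_sub, hay, hby, sub_self])
  have hbW' : b ∈ W' := by
    have h0 : b = a - (a - b) := by abel
    rw [h0]
    exact W'.sub_mem ha (hle hab)
  have hp'B : ((dd x, x + b) : (GQ → V) × V) ∈ B1 D W' := ⟨x, hx, b, ⟨hbW', hb⟩, rfl⟩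
  have hp'Z : ((dd x, x + b) : (GQ → V) × V) ∈ Z1 D W' := B1_le_Z1 D hW' hp'B
  have hsub : p - (dd x, x + b) ∈ Z1 D W' := (Z1 D W').sub_mem hp hp'Z
  have h1 : ∀ σ, (p - (dd x, x + b)).1 σ ∈ W := by
    intro σ
    rw [← q.ker]
    have h0 := congrFun (congrArg Prod.fst hEq) σ
    rw [Phi_fst] at h0
    show q.π (p.1 σ - dd x σ) = 0
    rw [map_sub, h0, ← q.dd, sub_self]
  have h2 : (p - (dd x, x + b)).2 ∈ W := by
    rw [← q.ker]
    have h0 := congrArg Prod.snd hEq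
    rw [Phi_snd] at h0
    show q.π (p.2 - (x + b)) = 0
    rw [map_sub, h0, map_add, hby, sub_self]
  have h3 : p = (p - (dd x, x + b)) + (dd x, x + b) := by abel
  rw [h3]
  exact AddSubgroup.add_mem_sup (mem_Z1_of_mem D hsub h1 h2) hp'B

end Fermat.Agent.S15.Sel

end
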