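/-
S15 / SEL-ABS: the six-term exact sequence, in the form of the inequality
  `h1 W' * #H0 W * #H0'' ≤ h1 W * #H0 W' * h1''`
for stable subgroups `W ≤ W'` of `V`, `q : V → Vq = V ⧸ W`, `'' = (D.push q, W'.map q.π)`.
-/
import Fermat.Agent.S15.Sel.ExMem
import Fermat.Agent.S15.Sel.ExIndex
import Fermat.Agent.S15.Sel.ExConn

set_option autoImplicit false
set_option linter.unusedSectionVars false

noncomputable section

namespace Fermat.Agent.S15.Sel

variable {P : Places} {r N : ℕ}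
variable {V Vq : Type*} [AddCommGroup V] [DistribMulAction GQ V] [AddCommGroup Vq]
  [DistribMulAction GQ Vq] {W : AddSubgroup V}

/-- (EX5) **the inequality of the six-term sequence.** -/
theorem ex_ineq [Finite V] (D : SelDat P r N V) (q : QMap V Vq W) {W' : AddSubgroup V}
    (hle : W ≤ W') (hW : GStable W) (hW' : GStable W') (h1W : h1 D W ≠ 0)
    (h1q : h1 (D.push q) (W'.map q.π) ≠ 0) :
    h1 D W' ≠ 0 ∧
      h1 D W' * (Nat.card (H0 D W) * Nat.card (H0 (D.push q) (W'.map q.π))) ≤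
        h1 D W * h1 (D.push q) (W'.map q.π) * Nat.card (H0 D W') := by
  -- a := B1 W' rel Z1 W,  b := B1 W rel (Z1 W ⊓ B1 W')
  have hBle : B1 D W ≤ Z1 D W ⊓ B1 D W' := le_inf (B1_le_Z1 D hW) (B1_mono D hle)
  have hmul : (B1 D W).relIndex (Z1 D W ⊓ B1 D W') * (B1 D W').relIndex (Z1 D W) = h1 D W := by
    have := AddSubgroup.relIndex_mul_relIndex (B1 D W) (Z1 D W ⊓ B1 D W') (Z1 D W) hBle inf_le_left
    rw [AddSubgroup.inf_relIndex_left] at this
    exact this
  have ha : (B1 D W').relIndex (Z1 D W) ≠ 0 := fun h => h1W (by rw [← hmul, h, mul_zero])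
  have hb : (B1 D W).relIndex (Z1 D W ⊓ B1 D W') ≠ 0 := fun h => h1W (by rw [← hmul, h, zero_mul])
  obtain ⟨h0, hle1⟩ := relIndex_le_of_hom (Phi q) (Z1 D W') (B1 D W') (Z1 D W)
    (Z1 (D.push q) (W'.map q.π)) (B1 (D.push q) (W'.map q.π)) (B1_le_Z1 D hW') (Z1_mono D hle)
    (fun p hp => Phi_mem_Z1 D q hp) (fun p hp hB => mem_sup_of_Phi_mem_B1 D q hle hW' hp hB) h1q ha
  refine ⟨h0, ?_⟩
  have hc := conn_count D q hle hW hW' hb
  calc h1 D W' * (Nat.card (H0 D W) * Nat.card (H0 (D.push q) (W'.map q.π)))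
      ≤ (h1 (D.push q) (W'.map q.π) * (B1 D W').relIndex (Z1 D W)) *
          (Nat.card (H0 D W) * Nat.card (H0 (D.push q) (W'.map q.π))) :=
        Nat.mul_le_mul_right _ hle1
    _ = (h1 (D.push q) (W'.map q.π) * (B1 D W').relIndex (Z1 D W)) *
          (Nat.card (H0 (D.push q) (W'.map q.π)) * Nat.card (H0 D W)) := by ring
    _ ≤ (h1 (D.push q) (W'.map q.π) * (B1 D W').relIndex (Z1 D W)) *
          ((B1 D W).relIndex (Z1 D W ⊓ B1 D W') * Nat.card (H0 D W')) :=
        Nat.mul_le_mul_left _ hc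
    _ = h1 D W * h1 (D.push q) (W'.map q.π) * Nat.card (H0 D W') := by
        rw [← hmul]; ring

end Fermat.Agent.S15.Sel

end
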